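/-
Programme T1B (row 38 via S44), cell AD (ALG-DESCENT), helper74: THE DESCENT OF FRAMES ON ONE CHART,
in the form consumed by the gluing theorem `AD74/Glue.lean` (Mathlib + helper21's `AD21/Frames`,
`AD21/Adapter` only).

Four rings `R → S`, `R → R̂`, `S → T`, `R̂ → T` (commutative square; in the application
`O_L ⊗ B`, `L ⊗ B`, `Ô ⊗ B`, `E ⊗ B`), fields `S → F`, `T → F̂` and `ι : F → F̂` compatible with `S → T`,
an element `π : R` with `S = R[1/π]`, `T = R̂[1/π]`, and the density / saturation hypotheses
`happrox`, `hsat` of `AD21.Frames.Setting` at ring level.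

`chart_descent` : for invertible `S`-submodules `I_K * J_K = 1` of `F` and invertible `R̂`-submodules
`Î * Ĵ = 1` of `F̂` with `T ∙ Î = T ∙ ι I_K`, there are `R`-submodules `I * J = 1` of `F` with
`S ∙ I = I_K`, `S ∙ J = J_K`, `R̂ ∙ ι I = Î`, `R̂ ∙ ι J = Ĵ`.

General lemmas: `span_mul_span_tower`, `span_one_tower`, `push_one_of_compat`.
-/
import Mathlib
import Fermat.Agent.T1B.AD21.Frames
import Fermat.Agent.T1B.AD21.Adapter

set_option autoImplicit false
set_option linter.unusedSectionVars false

namespace Fermat.Agent.T1B.AD74.ChartDescent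

open Fermat.Agent.T1B.AD21.Frames Fermat.Agent.T1B.AD21.Adapter
open scoped Pointwise

/-! ### General lemmas on extension of scalars of submodules of an algebra -/

section General

variable {A B F : Type*} [CommRing A] [CommRing B] [Field F] [Algebra A B] [Algebra A F]
  [Algebra B F] [IsScalarTower A B F]

/-- Extension of scalars of submodules of an algebra is multiplicative. -/
theorem span_mul_span_tower (P Q : Submodule A F) :
    Submodule.span B (P : Set F) * Submodule.span B (Q : Set F) =
      Submodule.span B ((P * Q : Submodule A F) : Set F) := by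
  rw [Submodule.span_mul_span]
  apply le_antisymm
  · exact Submodule.span_mono (Submodule.mul_subset_mul P Q)
  · rw [Submodule.span_le]
    have h : P * Q ≤ (Submodule.span B ((P : Set F) * (Q : Set F))).restrictScalars A := by
      rw [Submodule.mul_le]
      intro p hp q hq
      exact Submodule.subset_span (Set.mul_mem_mul hp hq)
    exact h

/-- Extension of scalars of the unit submodule. -/
theorem span_one_tower : Submodule.span B ((1 : Submodule A F) : Set F) = 1 := by
  apply le_antisymm
  · rw [Submodule.span_le]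
    intro x hx
    obtain ⟨a, rfl⟩ := Submodule.mem_one.mp hx
    rw [IsScalarTower.algebraMap_apply A B F]
    exact Submodule.mem_one.mpr ⟨_, rfl⟩
  · rw [Submodule.one_le]
    exact Submodule.subset_span (Submodule.mem_one.mpr ⟨1, map_one _⟩)

/-- `span B (span A s) = span B s`. -/
theorem span_span_tower (s : Set F) :
    Submodule.span B ((Submodule.span A s : Submodule A F) : Set F) = Submodule.span B s :=
  Submodule.span_span_of_tower A B s

end General

section Push

variable {R Rh F Fh : Type*} [CommRing R] [CommRing Rh] [Field F] [Field Fh]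
  [Algebra R F] [Algebra Rh Fh]

/-- `push 1 = 1` from the compatibility alone. -/
theorem push_one_of_compat {φ : R →+* Rh} {ι : F →+* Fh}
    (compat : ∀ r : R, algebraMap Rh Fh (φ r) = ι (algebraMap R F r)) :
    push Rh ι (1 : Submodule R F) = 1 := by
  apply le_antisymm
  · rw [push_le_iff]
    intro x hx
    obtain ⟨r, rfl⟩ := Submodule.mem_one.mp hx
    rw [← compat]
    exact Submodule.mem_one.mpr ⟨φ r, rfl⟩
  · rw [Submodule.one_le]
    have : (1 : F) ∈ (1 : Submodule R F) := Submodule.mem_one.mpr ⟨1, map_one _⟩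
    have h := map_mem_push (Rh := Rh) (ι := ι) this
    rwa [map_one] at h

end Push

/-! ### The chart step -/

section Chart

variable {R S Rh T F Fh : Type*} [CommRing R] [CommRing S] [CommRing Rh] [CommRing T]
  [Field F] [Field Fh]
  [Algebra R S] [Algebra R Rh] [Algebra S T] [Algebra Rh T]
  [Algebra S F] [Algebra R F] [IsScalarTower R S F]
  [Algebra T Fh] [Algebra Rh Fh] [IsScalarTower Rh T Fh]

/-- **Descent of an invertible frame on one chart.** -/
theorem chart_descent (ι : F →+* Fh) (π : R)
    (hιS : ∀ s : S, ι (algebraMap S F s) = algebraMap T Fh (algebraMap S T s))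
    (hsq : ∀ r : R, algebraMap S T (algebraMap R S r) = algebraMap Rh T (algebraMap R Rh r))
    (hπS : IsUnit (algebraMap R S π))
    (hS : ∀ s : S, ∃ (n : ℕ) (r : R), algebraMap R S π ^ n * s = algebraMap R S r)
    (hT : ∀ t : T, ∃ (n : ℕ) (r : Rh),
      algebraMap Rh T (algebraMap R Rh π) ^ n * t = algebraMap Rh T r)
    (happrox : ∀ (n : ℕ) (x : Rh), ∃ (r : R) (s : Rh),
      x = algebraMap R Rh r + algebraMap R Rh π ^ n * s)
    (hsat : ∀ (n : ℕ) (r : R), algebraMap R Rh r ∈ Ideal.span {algebraMap R Rh π ^ n} →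
      r ∈ Ideal.span {π ^ n})
    (hinjh : Function.Injective (algebraMap Rh Fh))
    {IKS JKS : Submodule S F} (hK : IKS * JKS = 1)
    {Ih Jh : Submodule Rh Fh} (hh : Ih * Jh = 1)
    (hspan : Submodule.span T (Ih : Set Fh) = Submodule.span T (ι '' (IKS : Set F))) :
    ∃ I J : Submodule R F, I * J = 1 ∧ (∀ x ∈ I, x ∈ IKS) ∧ (∀ x ∈ J, x ∈ JKS) ∧
      Submodule.span S (I : Set F) = IKS ∧ Submodule.span S (J : Set F) = JKS ∧
      push Rh ι I = Ih ∧ push Rh ι J = Jh := by
  -- the setting
  have compat : ∀ r : R, algebraMap Rh Fh (algebraMap R Rh r) = ι (algebraMap R F r) := by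
    intro r
    rw [IsScalarTower.algebraMap_apply R S F, hιS, hsq, ← IsScalarTower.algebraMap_apply Rh T Fh]
  obtain ⟨u, hu⟩ := hπS
  have huF : algebraMap S F (u : S) = algebraMap R F π := by
    rw [hu, ← IsScalarTower.algebraMap_apply R S F]
  have hinvF : (algebraMap R F π)⁻¹ = algebraMap S F ((u⁻¹ : Sˣ) : S) := by
    rw [← huF]
    apply inv_eq_of_mul_eq_one_right
    rw [← map_mul, Units.mul_inv, map_one]
  have pi_ne : algebraMap R F π ≠ 0 := by
    intro h0
    have h1 : algebraMap S F ((u : S) * ((u⁻¹ : Sˣ) : S)) = 0 := by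
      rw [map_mul, huF, h0, zero_mul]
    rw [Units.mul_inv, map_one] at h1
    exact one_ne_zero h1
  have Sg : Setting (algebraMap R Rh) ι π :=
    ⟨compat, pi_ne, happrox, sat_of_injective compat pi_ne hinjh hsat⟩
  -- `π⁻¹`-stability of `S`-submodules
  have hst : ∀ P : Submodule S F, ∀ x ∈ P.restrictScalars R,
      (algebraMap R F π)⁻¹ * x ∈ P.restrictScalars R := by
    intro P x hx
    rw [hinvF, ← Algebra.smul_def]
    exact P.smul_mem _ hx
  -- `T`-spans of the inverses
  have e1 : Submodule.span T (Jh : Set Fh) * Submodule.span T (ι '' (IKS : Set F)) = 1 := by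
    rw [← hspan, mul_comm, span_mul_span_tower, hh, span_one_tower]
  have e2 : Submodule.span T (ι '' (IKS : Set F)) * Submodule.span T (ι '' (JKS : Set F)) = 1 := by
    have h := push_mul (Rh := T) (ι := ι) IKS JKS
    rw [hK, push_one_of_compat (φ := algebraMap S T) (fun s => (hιS s).symm)] at h
    exact h.symm
  have hspanJ : Submodule.span T (Jh : Set Fh) = Submodule.span T (ι '' (JKS : Set F)) :=
    left_inv_eq_right_inv e1 e2
  -- hypotheses of helper21's lemmas
  have hIA : ∀ x ∈ IKS.restrictScalars R, ∃ n : ℕ, ι (algebraMap R F π ^ n * x) ∈ Ih :=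
    hA_of_span_eq Sg (IKS.restrictScalars R) Ih hT (le_of_eq hspan.symm)
  have hIB : Ih ≤ push Rh ι (IKS.restrictScalars R) :=
    le_push_of_span_eq Sg (IKS.restrictScalars R) Ih (hst IKS) hT (le_of_eq hspan)
  have hJA : ∀ x ∈ JKS.restrictScalars R, ∃ n : ℕ, ι (algebraMap R F π ^ n * x) ∈ Jh :=
    hA_of_span_eq Sg (JKS.restrictScalars R) Jh hT (le_of_eq hspanJ.symm)
  have hJB : Jh ≤ push Rh ι (JKS.restrictScalars R) :=
    le_push_of_span_eq Sg (JKS.restrictScalars R) Jh (hst JKS) hT (le_of_eq hspanJ)
  have hprod : IKS.restrictScalars R * JKS.restrictScalars R =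
      (1 : Submodule S F).restrictScalars R := by
    rw [← hK]; rfl
  have hK1 : (1 : F) ∈ IKS.restrictScalars R * JKS.restrictScalars R := by
    rw [hprod]
    exact Submodule.mem_one.mpr ⟨1, map_one _⟩
  have hK2 : ∀ x ∈ IKS.restrictScalars R * JKS.restrictScalars R,
      ∃ n : ℕ, algebraMap R F π ^ n * x ∈ Set.range (algebraMap R F) := by
    intro x hx
    rw [hprod] at hx
    obtain ⟨s, rfl⟩ := Submodule.mem_one.mp hx
    obtain ⟨n, r, hnr⟩ := hS s
    refine ⟨n, r, ?_⟩
    rw [IsScalarTower.algebraMap_apply R S F r, ← hnr, map_mul, map_pow,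
      ← IsScalarTower.algebraMap_apply R S F]
  -- generic fibre of `pull`
  have hgen : ∀ (P : Submodule S F) (Ph : Submodule Rh Fh),
      (∀ x ∈ P.restrictScalars R, ∃ n : ℕ, ι (algebraMap R F π ^ n * x) ∈ Ph) →
      Submodule.span S ((pull Sg (P.restrictScalars R) Ph : Submodule R F) : Set F) = P := by
    intro P Ph hPA
    apply le_antisymm
    · rw [Submodule.span_le]
      intro x hx
      exact hx.1
    · intro x hx
      obtain ⟨n, hn⟩ := hPA x hx
      have hmem : algebraMap R F π ^ n * x ∈ pull Sg (P.restrictScalars R) Ph := by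
        refine ⟨?_, hn⟩
        rw [← map_pow, ← Algebra.smul_def]
        exact (P.restrictScalars R).smul_mem _ hx
      have hx' : x = (((u⁻¹ : Sˣ) : S) ^ n) • (algebraMap R F π ^ n * x) := by
        rw [Algebra.smul_def, map_pow, ← hinvF, ← mul_assoc, ← mul_pow,
          inv_mul_cancel₀ pi_ne, one_pow, one_mul]
      rw [hx']
      exact Submodule.smul_mem _ _ (Submodule.subset_span hmem)
  exact ⟨pull Sg (IKS.restrictScalars R) Ih, pull Sg (JKS.restrictScalars R) Jh,
    pull_mul_pull Sg _ _ Ih Jh hIA hIB hJA hJB hK1 hK2 hh,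
    fun x hx => hx.1, fun x hx => hx.1, hgen IKS Ih hIA, hgen JKS Jh hJA,
    push_pull Sg _ Ih hIA hIB, push_pull Sg _ Jh hJA hJB⟩

end Chart

end Fermat.Agent.T1B.AD74.ChartDescent
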