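/-
Programme T1B (row 38 via S44), cell AD (ALG-DESCENT), brick AD-3 (helper74), part 1:
FRAMES AND BASE CHANGE (abstract; vocabulary = Jac `QC2` / `LiftData` + helper31's `Hol31.Frame`).

For a cube of two-chart rings `(A, R0, R1, R01) → (A', R0', R1', R01')`, a two-chart module `L` over
the unprimed rings, a base change `L'` of it (`d : LiftData L L'`) and a field `F` which is an
algebra over the primed (hence the unprimed) rings:

* `restrictFraming d ε'` : a framing `ε' : L'.N01 → F` of the base change restricts to the framing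
  `x ↦ ε' (d.e01 (1 ⊗ x))` of `L`;
* `extendFraming d ε`    : a framing `ε : L.N01 → F` of `L` extends to the framing
  `d.e01 (a ⊗ x) ↦ a • ε x` of `L'`; `restrictFraming_extendFraming`;
* `span_frame0_restrictFraming`, `span_frame1_restrictFraming` : **the frames of a base change are
  the extended frames**, `R_j' ∙ frame_j L (restrictFraming d ε') = frame_j L' ε'`;
* `frame0_extendFraming`, `frame1_extendFraming` : the same for an extended framing;
* `restrictFraming_ne_zero`, `extendFraming_ne_zero`.
-/
import Mathlib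
import Fermat.Agent.T1B.Hol31.Frame

set_option autoImplicit false
set_option linter.unusedSectionVars false

universe u v

open TensorProduct

namespace Fermat.Agent.T1B.AD74.FrameBC

open Fermat.Agent.Jac Fermat.Agent.Jac.LineOps39 Fermat.Agent.Jac.JGroup85Pic
open Fermat.Agent.Jac.JSmooth85Alg Fermat.Agent.T1B.Hol31.Frame

variable {A R0 R1 R01 A' R0' R1' R01' : Type u}
  [CommRing A] [CommRing R0] [CommRing R1] [CommRing R01]
  [Algebra A R0] [Algebra A R1] [Algebra A R01] [Algebra R0 R01] [Algebra R1 R01]
  [IsScalarTower A R0 R01] [IsScalarTower A R1 R01]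
  [CommRing A'] [CommRing R0'] [CommRing R1'] [CommRing R01']
  [Algebra A' R0'] [Algebra A' R1'] [Algebra A' R01'] [Algebra R0' R01'] [Algebra R1' R01']
  [IsScalarTower A' R0' R01'] [IsScalarTower A' R1' R01']
  [Algebra R0 R0'] [Algebra R1 R1'] [Algebra R01 R01']
  {F : Type v} [Field F]
  [Algebra R0' F] [Algebra R1' F] [Algebra R01' F]
  [IsScalarTower R0' R01' F] [IsScalarTower R1' R01' F]
  [Algebra R0 F] [Algebra R1 F] [Algebra R01 F]
  [IsScalarTower R0 R01 F] [IsScalarTower R1 R01 F]
  [IsScalarTower R0 R0' F] [IsScalarTower R1 R1' F] [IsScalarTower R01 R01' F]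

/-! ### Restriction of a framing of the base change -/

/-- `1 ⊗ (r • x) = r • (1 ⊗ x)` for the action of `R01'` on the left factor. -/
theorem one_tmul_smul {N : Type u} [AddCommGroup N] [Module R01 N] (r : R01) (x : N) :
    ((1 : R01') ⊗ₜ[R01] (r • x)) = algebraMap R01 R01' r • ((1 : R01') ⊗ₜ[R01] x) := by
  rw [TensorProduct.smul_tmul', smul_eq_mul, mul_one, Algebra.algebraMap_eq_smul_one,
    TensorProduct.smul_tmul]

/-- The framing of `L` induced by a framing of a base change `L'` of `L`. -/
noncomputable def restrictFraming {L : QC2 A R0 R1 R01} {L' : QC2 A' R0' R1' R01'}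
    (d : LiftData L L') (ε' : L'.N01 →ₗ[R01'] F) : L.N01 →ₗ[R01] F where
  toFun x := ε' (d.e01 ((1 : R01') ⊗ₜ[R01] x))
  map_add' x y := by rw [TensorProduct.tmul_add, map_add, map_add]
  map_smul' r x := by
    rw [one_tmul_smul, map_smul, map_smul, RingHom.id_apply, algebraMap_smul]

theorem restrictFraming_apply {L : QC2 A R0 R1 R01} {L' : QC2 A' R0' R1' R01'}
    (d : LiftData L L') (ε' : L'.N01 →ₗ[R01'] F) (x : L.N01) :
    restrictFraming d ε' x = ε' (d.e01 ((1 : R01') ⊗ₜ[R01] x)) := rfl

/-- A framing of the base change is determined by its restriction. -/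
theorem restrictFraming_ne_zero {L : QC2 A R0 R1 R01} {L' : QC2 A' R0' R1' R01'}
    (d : LiftData L L') {ε' : L'.N01 →ₗ[R01'] F} (hε' : ε' ≠ 0) : restrictFraming d ε' ≠ 0 := by
  intro h0
  apply hε'
  have key : ∀ w : R01' ⊗[R01] L.N01, ε' (d.e01 w) = 0 := by
    intro w
    induction w using TensorProduct.induction_on with
    | zero => rw [map_zero, map_zero]
    | tmul a x =>
      have e1 : (a ⊗ₜ[R01] x : R01' ⊗[R01] L.N01) = a • ((1 : R01') ⊗ₜ[R01] x) := by
        rw [TensorProduct.smul_tmul', smul_eq_mul, mul_one]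
      have h1 : ε' (d.e01 ((1 : R01') ⊗ₜ[R01] x)) = 0 := by
        rw [← restrictFraming_apply, h0, LinearMap.zero_apply]
      rw [e1, map_smul, map_smul, h1, smul_zero]
    | add w₁ w₂ h₁ h₂ => rw [map_add, map_add, h₁, h₂, add_zero]
  apply LinearMap.ext
  intro y
  obtain ⟨w, rfl⟩ := d.e01.surjective y
  rw [key, LinearMap.zero_apply]

/-- `ε'` is `R0'`-linear for the `R0'`-structure of `L'.N01`. -/
theorem framing_smul0 {L' : QC2 A' R0' R1' R01'} (ε' : L'.N01 →ₗ[R01'] F) (a : R0')
    (m : L'.N01) : ε' (a • m) = a • ε' m :=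
  (ε'.restrictScalars R0').map_smul a m

/-- `ε'` is `R1'`-linear for the `R1'`-structure of `L'.N01`. -/
theorem framing_smul1 {L' : QC2 A' R0' R1' R01'} (ε' : L'.N01 →ₗ[R01'] F) (a : R1')
    (m : L'.N01) : ε' (a • m) = a • ε' m :=
  (ε'.restrictScalars R1').map_smul a m

/-- **Chart `0`: the frame of a base change is the extended frame.** -/
theorem span_frame0_restrictFraming {L : QC2 A R0 R1 R01} {L' : QC2 A' R0' R1' R01'}
    (d : LiftData L L') (ε' : L'.N01 →ₗ[R01'] F) :
    Submodule.span R0' (frame0 L (restrictFraming d ε') : Set F) = frame0 L' ε' := by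
  apply le_antisymm
  · rw [Submodule.span_le]
    intro z hz
    obtain ⟨x, rfl⟩ := mem_frame0.mp hz
    rw [restrictFraming_apply, d.comm0]
    exact mem_frame0.mpr ⟨_, rfl⟩
  · have key : ∀ w : R0' ⊗[R0] L.N0, ε' (L'.r0 (d.e0 w)) ∈
        Submodule.span R0' (frame0 L (restrictFraming d ε') : Set F) := by
      intro w
      induction w using TensorProduct.induction_on with
      | zero =>
        rw [map_zero, map_zero, map_zero]
        exact Submodule.zero_mem _
      | tmul a x =>
        have e1 : (a ⊗ₜ[R0] x : R0' ⊗[R0] L.N0) = a • ((1 : R0') ⊗ₜ[R0] x) := by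
          rw [TensorProduct.smul_tmul', smul_eq_mul, mul_one]
        rw [e1, map_smul, map_smul, framing_smul0, ← d.comm0, ← restrictFraming_apply]
        exact Submodule.smul_mem _ _ (Submodule.subset_span (mem_frame0.mpr ⟨x, rfl⟩))
      | add w₁ w₂ h₁ h₂ =>
        rw [map_add, map_add, map_add]
        exact Submodule.add_mem _ h₁ h₂
    intro z hz
    obtain ⟨y, rfl⟩ := mem_frame0.mp hz
    obtain ⟨w, rfl⟩ := d.e0.surjective y
    exact key w

/-- **Chart `1`: the frame of a base change is the extended frame.** -/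
theorem span_frame1_restrictFraming {L : QC2 A R0 R1 R01} {L' : QC2 A' R0' R1' R01'}
    (d : LiftData L L') (ε' : L'.N01 →ₗ[R01'] F) :
    Submodule.span R1' (frame1 L (restrictFraming d ε') : Set F) = frame1 L' ε' := by
  apply le_antisymm
  · rw [Submodule.span_le]
    intro z hz
    obtain ⟨x, rfl⟩ := mem_frame1.mp hz
    rw [restrictFraming_apply, d.comm1]
    exact mem_frame1.mpr ⟨_, rfl⟩
  · have key : ∀ w : R1' ⊗[R1] L.N1, ε' (L'.r1 (d.e1 w)) ∈
        Submodule.span R1' (frame1 L (restrictFraming d ε') : Set F) := by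
      intro w
      induction w using TensorProduct.induction_on with
      | zero =>
        rw [map_zero, map_zero, map_zero]
        exact Submodule.zero_mem _
      | tmul a x =>
        have e1 : (a ⊗ₜ[R1] x : R1' ⊗[R1] L.N1) = a • ((1 : R1') ⊗ₜ[R1] x) := by
          rw [TensorProduct.smul_tmul', smul_eq_mul, mul_one]
        rw [e1, map_smul, map_smul, framing_smul1, ← d.comm1, ← restrictFraming_apply]
        exact Submodule.smul_mem _ _ (Submodule.subset_span (mem_frame1.mpr ⟨x, rfl⟩))
      | add w₁ w₂ h₁ h₂ =>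
        rw [map_add, map_add, map_add]
        exact Submodule.add_mem _ h₁ h₂
    intro z hz
    obtain ⟨y, rfl⟩ := mem_frame1.mp hz
    obtain ⟨w, rfl⟩ := d.e1.surjective y
    exact key w

/-! ### Extension of a framing to the base change -/

/-- The framing of a base change `L'` of `L` induced by a framing of `L`:
`d.e01 (a ⊗ x) ↦ a • ε x`. -/
noncomputable def extendFraming {L : QC2 A R0 R1 R01} {L' : QC2 A' R0' R1' R01'}
    (d : LiftData L L') (ε : L.N01 →ₗ[R01] F) : L'.N01 →ₗ[R01'] F :=
  (ε.liftBaseChange R01').comp d.e01.symm.toLinearMap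

theorem extendFraming_apply {L : QC2 A R0 R1 R01} {L' : QC2 A' R0' R1' R01'}
    (d : LiftData L L') (ε : L.N01 →ₗ[R01] F) (a : R01') (x : L.N01) :
    extendFraming d ε (d.e01 (a ⊗ₜ[R01] x)) = a • ε x := by
  show (ε.liftBaseChange R01') (d.e01.symm (d.e01 (a ⊗ₜ x))) = _
  rw [LinearEquiv.symm_apply_apply, LinearMap.liftBaseChange_tmul]

theorem restrictFraming_extendFraming {L : QC2 A R0 R1 R01} {L' : QC2 A' R0' R1' R01'}
    (d : LiftData L L') (ε : L.N01 →ₗ[R01] F) :
    restrictFraming d (extendFraming d ε) = ε := by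
  apply LinearMap.ext
  intro x
  rw [restrictFraming_apply, extendFraming_apply, one_smul]

theorem extendFraming_ne_zero {L : QC2 A R0 R1 R01} {L' : QC2 A' R0' R1' R01'}
    (d : LiftData L L') {ε : L.N01 →ₗ[R01] F} (hε : ε ≠ 0) : extendFraming d ε ≠ 0 := by
  intro h0
  apply hε
  rw [← restrictFraming_extendFraming d ε, h0]
  apply LinearMap.ext
  intro x
  rw [restrictFraming_apply, LinearMap.zero_apply, LinearMap.zero_apply]

/-- Chart `0`: the frame of the extended framing is the extended frame. -/
theorem frame0_extendFraming {L : QC2 A R0 R1 R01} {L' : QC2 A' R0' R1' R01'}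
    (d : LiftData L L') (ε : L.N01 →ₗ[R01] F) :
    frame0 L' (extendFraming d ε) = Submodule.span R0' (frame0 L ε : Set F) := by
  rw [← span_frame0_restrictFraming d (extendFraming d ε), restrictFraming_extendFraming]

/-- Chart `1`: the frame of the extended framing is the extended frame. -/
theorem frame1_extendFraming {L : QC2 A R0 R1 R01} {L' : QC2 A' R0' R1' R01'}
    (d : LiftData L L') (ε : L.N01 →ₗ[R01] F) :
    frame1 L' (extendFraming d ε) = Submodule.span R1' (frame1 L ε : Set F) := by
  rw [← span_frame1_restrictFraming d (extendFraming d ε), restrictFraming_extendFraming]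

end Fermat.Agent.T1B.AD74.FrameBC
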