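/-
Programme T1B (row 38 via S44), cell AD (ALG-DESCENT), brick AD-3 (helper74), part 2:
THE FRAMES OF A LINE ARE INVERTIBLE (abstract; Jac `QC2` / `LinePic` + helper31's `Hol31.Frame`).

`Hol31.Frame.exists_frames_of_pow_eq_one` produces inverses of the frames of a line whose class is
killed by `p`.  The extension `M̂ ∈ P⁰⁰(O_E)` of a `p`-torsion class of the generic fibre is NOT
`p`-torsion in `Pic X_{O_E}` (only its generic fibre is), so we need the general statement:

* `exists_span_eq_frame_mul` : for lines `M`, `N` with `M ⊗ N ≅ O` and nonzero framings `ε`, `η`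
  there is ONE `g ≠ 0` with `frame_j M ε * frame_j N η = R_j ∙ g` (`j = 0, 1`);
* `exists_frame_mul_eq_one`  : for a line `M` (class in `LinePic c`) and a nonzero framing `ε`, both
  frames are invertible: `∃ J0, frame0 M ε * J0 = 1`, `∃ J1, frame1 M ε * J1 = 1`.
-/
import Mathlib
import Fermat.Agent.T1B.Hol31.Frame

set_option autoImplicit false
set_option linter.unusedSectionVars false

universe u v

open TensorProduct

namespace Fermat.Agent.T1B.AD74.FrameInv

open Fermat.Agent.Jac Fermat.Agent.Jac.LineOps39 Fermat.Agent.Jac.JGroup85Pic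
open Fermat.Agent.T1B.Hol31.Frame

variable {A R0 R1 R01 : Type u} [CommRing A] [CommRing R0] [CommRing R1] [CommRing R01]
  [Algebra A R0] [Algebra A R1] [Algebra A R01] [Algebra R0 R01] [Algebra R1 R01]
  [IsScalarTower A R0 R01] [IsScalarTower A R1 R01]
  {F : Type v} [Field F] [Algebra R0 F] [Algebra R1 F] [Algebra R01 F]
  [IsScalarTower R0 R01 F] [IsScalarTower R1 R01 F]

/-- A nonzero framing takes a nonzero value. -/
theorem exists_apply_ne_zero {M : QC2 A R0 R1 R01} {ε : M.N01 →ₗ[R01] F} (hε : ε ≠ 0) :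
    ∃ x, ε x ≠ 0 := by
  by_contra hcon
  push Not at hcon
  exact hε (LinearMap.ext hcon)

/-- **Framed form of `M ⊗ N ≅ O`.** -/
theorem exists_span_eq_frame_mul {M N : QC2 A R0 R1 R01} (ε : M.N01 →ₗ[R01] F) (hε : ε ≠ 0)
    (η : N.N01 →ₗ[R01] F) (hη : η ≠ 0)
    (ψ : QC2.Iso (QC2.unit : QC2 A R0 R1 R01) (tensor M N)) :
    ∃ g : F, g ≠ 0 ∧ frame0 M ε * frame0 N η = Submodule.span R0 {g} ∧
      frame1 M ε * frame1 N η = Submodule.span R1 {g} := by
  set θ : (QC2.unit : QC2 A R0 R1 R01).N01 →ₗ[R01] F :=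
    (tensorFraming ε η).comp ψ.e01.toLinearMap with hθ
  have hunit := framing_unit_eq θ
  refine ⟨(θ : R01 →ₗ[R01] F) (1 : R01), ?_, ?_, ?_⟩
  · obtain ⟨x, hx⟩ := exists_apply_ne_zero hε
    obtain ⟨y, hy⟩ := exists_apply_ne_zero hη
    intro hg
    have h0 : θ = 0 := by
      rw [hunit, hg]
      apply LinearMap.ext_ring
      change (unitFraming (A := A) (R0 := R0) (R1 := R1) (0 : F) : R01 →ₗ[R01] F) (1 : R01) = 0
      rw [unitFraming_apply, smul_zero]
    have h1 : θ (ψ.e01.symm (x ⊗ₜ[R01] y : M.N01 ⊗[R01] N.N01)) = ε x * η y := by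
      rw [hθ]
      change (tensorFraming ε η : M.N01 ⊗[R01] N.N01 →ₗ[R01] F)
        (ψ.e01 (ψ.e01.symm (x ⊗ₜ[R01] y : M.N01 ⊗[R01] N.N01))) = _
      rw [LinearEquiv.apply_symm_apply, tensorFraming_tmul]
    rw [h0] at h1
    exact mul_ne_zero hx hy h1.symm
  · have h := frame0_unit (A := A) (R0 := R0) (R1 := R1) (R01 := R01)
      ((θ : R01 →ₗ[R01] F) (1 : R01))
    rw [← hunit] at h
    rw [← frame0_tensor ε η, ← frame0_iso ψ (tensorFraming ε η)]
    exact h
  · have h := frame1_unit (A := A) (R0 := R0) (R1 := R1) (R01 := R01)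
      ((θ : R01 →ₗ[R01] F) (1 : R01))
    rw [← hunit] at h
    rw [← frame1_tensor ε η, ← frame1_iso ψ (tensorFraming ε η)]
    exact h

/-- A submodule `I` with `I * I' = R ∙ g`, `g ≠ 0`, is invertible. -/
theorem exists_mul_eq_one_of_mul_eq_span {R : Type*} [CommRing R] [Algebra R F]
    {I I' : Submodule R F} {g : F} (hg : g ≠ 0) (h : I * I' = Submodule.span R {g}) :
    ∃ J : Submodule R F, I * J = 1 := by
  refine ⟨I' * Submodule.span R {g⁻¹}, ?_⟩
  rw [← mul_assoc, h, Submodule.span_mul_span, Set.singleton_mul_singleton,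
    mul_inv_cancel₀ hg, Submodule.one_eq_span]

/-- **The frames of a line are invertible.** -/
theorem exists_frame_mul_eq_one (c : TwoChart A R0 R1 R01) {M : QC2 A R0 R1 R01} (hM : M.IsLine)
    (hinj : Function.Injective (algebraMap R0 F)) (ε : M.N01 →ₗ[R01] F) (hε : ε ≠ 0) :
    (∃ J0 : Submodule R0 F, frame0 M ε * J0 = 1) ∧
      (∃ J1 : Submodule R1 F, frame1 M ε * J1 = 1) := by
  obtain ⟨N, hN, hNeq⟩ := LinePic.exists_rep ((LinePic.mk c M hM)⁻¹)
  have h1 : LinePic.mk c M hM * LinePic.mk c N hN = 1 := by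
    rw [← hNeq, mul_inv_cancel]
  obtain ⟨e⟩ := (LinePic.mk_mul_mk_eq_one_iff hM hN).mp h1
  obtain ⟨η, hη⟩ := exists_framing_ne_zero (F := F) hN hinj
  obtain ⟨g, hg, h0, h1'⟩ := exists_span_eq_frame_mul ε hε η hη (isoSymm e)
  exact ⟨exists_mul_eq_one_of_mul_eq_span hg h0, exists_mul_eq_one_of_mul_eq_span hg h1'⟩

/-- Inverses of submodules are unique. -/
theorem eq_of_mul_eq_one {R : Type*} [CommRing R] [Algebra R F] {I J J' : Submodule R F}
    (h : I * J = 1) (h' : I * J' = 1) : J = J' := by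
  calc J = J * (I * J') := by rw [h', mul_one]
    _ = (I * J) * J' := by rw [← mul_assoc, mul_comm J I]
    _ = J' := by rw [h, one_mul]

end Fermat.Agent.T1B.AD74.FrameInv
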