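/-
Programme T1B (row 38 via S44), cell AD (ALG-DESCENT), brick AD-3 (helper74), part 3:
THE `p`-ADIC FRAMES OF AN EXTENSION WHOSE GENERIC FIBRE IS A GLOBAL FRAMED LINE.

Three levels of two-chart rings (all abstract):
* `S_j`  : the "`L`-level" (`L ⊗[W] B_j`, `L` a number field): here lives the GLOBAL framed line
  `(M_L, ε_L)` of the dictionary (its frames are the line pair `(I_0, I_1)` of `x ∈ J₀(N)(ℚ̄)[p]`);
* `R̂_j` : the "`O_E`-level" (`O_E ⊗[W] B_j`, `O_E` a complete DVR): here lives the extension `M̂`;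
* `T_j`  : the "`E`-level" (`E ⊗[W] B_j = R̂_j[1/π]`), with cubes `S → T` and `R̂ → T`;
and a field `F̂` which is an algebra over the `T_j` (hence over the `S_j`, `R̂_j`).

`exists_framing_of_bc_eq` : if `M̂` and `M_L` have the same generic fibre over `T`
(`LinePic.bc [M̂] = LinePic.bc [M_L]`), then `M̂` has a nonzero framing `ε̂` into `F̂` whose frames
`Î_j := frame_j M̂ ε̂` (invertible `R̂_j`-submodules of `F̂`) satisfy
`T_j ∙ Î_j = T_j ∙ frame_j M_L ε_L`, i.e. `Î_j[1/π] = I_j · E`.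
This is the input `(Î, Ĵ)` of the elementary frame descent (AD-frames).

`exists_framing_of_map_eq` : the same in the hub vocabulary `PicX c0`, `PicX.map c0`.
-/
import Mathlib
import Fermat.Agent.T1B.AD74.FrameBC
import Fermat.Agent.T1B.AD74.FrameInv
import Fermat.Agent.T1.RedIface75

set_option autoImplicit false
set_option linter.unusedSectionVars false

universe u v

open TensorProduct

namespace Fermat.Agent.T1B.AD74.Main

open Fermat.Agent.Jac Fermat.Agent.Jac.LineOps39 Fermat.Agent.Jac.JGroup85Pic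
open Fermat.Agent.Jac.JSmooth85Alg Fermat.Agent.Jac.BaseChange75 Fermat.Agent.T1B.Hol31.Frame
open Fermat.Agent.T1B.AD74.FrameBC Fermat.Agent.T1B.AD74.FrameInv

section Abstract

variable {AS S0 S1 S01 AR Rh0 Rh1 Rh01 AT T0 T1 T01 : Type u}
  [CommRing AS] [CommRing S0] [CommRing S1] [CommRing S01]
  [Algebra AS S0] [Algebra AS S1] [Algebra AS S01] [Algebra S0 S01] [Algebra S1 S01]
  [IsScalarTower AS S0 S01] [IsScalarTower AS S1 S01]
  [CommRing AR] [CommRing Rh0] [CommRing Rh1] [CommRing Rh01]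
  [Algebra AR Rh0] [Algebra AR Rh1] [Algebra AR Rh01] [Algebra Rh0 Rh01] [Algebra Rh1 Rh01]
  [IsScalarTower AR Rh0 Rh01] [IsScalarTower AR Rh1 Rh01]
  [CommRing AT] [CommRing T0] [CommRing T1] [CommRing T01]
  [Algebra AT T0] [Algebra AT T1] [Algebra AT T01] [Algebra T0 T01] [Algebra T1 T01]
  [IsScalarTower AT T0 T01] [IsScalarTower AT T1 T01]
  [Algebra S0 T0] [Algebra S1 T1] [Algebra S01 T01]
  [Algebra Rh0 T0] [Algebra Rh1 T1] [Algebra Rh01 T01]
  {F : Type v} [Field F]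
  [Algebra T0 F] [Algebra T1 F] [Algebra T01 F] [IsScalarTower T0 T01 F] [IsScalarTower T1 T01 F]
  [Algebra S0 F] [Algebra S1 F] [Algebra S01 F] [IsScalarTower S0 S01 F] [IsScalarTower S1 S01 F]
  [IsScalarTower S0 T0 F] [IsScalarTower S1 T1 F] [IsScalarTower S01 T01 F]
  [Algebra Rh0 F] [Algebra Rh1 F] [Algebra Rh01 F]
  [IsScalarTower Rh0 Rh01 F] [IsScalarTower Rh1 Rh01 F]
  [IsScalarTower Rh0 T0 F] [IsScalarTower Rh1 T1 F] [IsScalarTower Rh01 T01 F]

/-- **AD-3, abstract three-cube form.** -/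
theorem exists_framing_of_bc_eq
    (hc0S : (algebraMap T0 T01).comp (algebraMap S0 T0) =
      (algebraMap S01 T01).comp (algebraMap S0 S01))
    (hc1S : (algebraMap T1 T01).comp (algebraMap S1 T1) =
      (algebraMap S01 T01).comp (algebraMap S1 S01))
    (hc0R : (algebraMap T0 T01).comp (algebraMap Rh0 T0) =
      (algebraMap Rh01 T01).comp (algebraMap Rh0 Rh01))
    (hc1R : (algebraMap T1 T01).comp (algebraMap Rh1 T1) =
      (algebraMap Rh01 T01).comp (algebraMap Rh1 Rh01))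
    (cS : TwoChart AS S0 S1 S01) (cR : TwoChart AR Rh0 Rh1 Rh01) (cT : TwoChart AT T0 T1 T01)
    {ML : QC2 AS S0 S1 S01} (hML : ML.IsLine) (εL : ML.N01 →ₗ[S01] F) (hεL : εL ≠ 0)
    {Mh : QC2 AR Rh0 Rh1 Rh01} (hMh : Mh.IsLine)
    (hinj : Function.Injective (algebraMap Rh0 F))
    (h : LinePic.bc hc0R hc1R cR cT (LinePic.mk cR Mh hMh) =
      LinePic.bc hc0S hc1S cS cT (LinePic.mk cS ML hML)) :
    ∃ εh : Mh.N01 →ₗ[Rh01] F, εh ≠ 0 ∧
      Submodule.span T0 (frame0 Mh εh : Set F) = Submodule.span T0 (frame0 ML εL : Set F) ∧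
      Submodule.span T1 (frame1 Mh εh : Set F) = Submodule.span T1 (frame1 ML εL : Set F) ∧
      (∃ J0 : Submodule Rh0 F, frame0 Mh εh * J0 = 1) ∧
      (∃ J1 : Submodule Rh1 F, frame1 Mh εh * J1 = 1) := by
  have dS : LiftData ML (bcCube AT hc0S hc1S ML) := liftData_bcCube hc0S hc1S ML
  rw [LinePic.bc_mk hc0S hc1S cS cT hML dS] at h
  obtain ⟨dR⟩ := LinePic.nonempty_liftData_of_bc_eq hc0R hc1R cR cT hMh
    (LiftData.isLine dS hML) h
  have hne : restrictFraming dR (extendFraming dS εL) ≠ 0 :=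
    restrictFraming_ne_zero dR (extendFraming_ne_zero dS hεL)
  refine ⟨restrictFraming dR (extendFraming dS εL), hne, ?_, ?_,
    exists_frame_mul_eq_one cR hMh hinj _ hne⟩
  · rw [span_frame0_restrictFraming, frame0_extendFraming]
  · rw [span_frame1_restrictFraming, frame1_extendFraming]

end Abstract

/-! ### The hub form -/

section Hub

open Fermat.Agent.T1.RedIface75
open scoped Fermat.Agent.Jac.BaseChange75

variable {W B0 B1 B01 : Type u} [CommRing W] [CommRing B0] [CommRing B1] [CommRing B01]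
  [Algebra W B0] [Algebra W B1] [Algebra W B01] [Algebra B0 B01] [Algebra B1 B01]
  [IsScalarTower W B0 B01] [IsScalarTower W B1 B01]
  (c0 : TwoChart W B0 B1 B01)
  (O L E : Type u) [CommRing O] [CommRing L] [CommRing E] [Algebra W O] [Algebra W L] [Algebra W E]
  [Algebra O E] [IsScalarTower W O E] [Algebra L E] [IsScalarTower W L E]
  {F : Type v} [Field F]
  [Algebra (E ⊗[W] B0) F] [Algebra (E ⊗[W] B1) F] [Algebra (E ⊗[W] B01) F]
  [IsScalarTower (E ⊗[W] B0) (E ⊗[W] B01) F] [IsScalarTower (E ⊗[W] B1) (E ⊗[W] B01) F]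
  [Algebra (L ⊗[W] B0) F] [Algebra (L ⊗[W] B1) F] [Algebra (L ⊗[W] B01) F]
  [IsScalarTower (L ⊗[W] B0) (L ⊗[W] B01) F] [IsScalarTower (L ⊗[W] B1) (L ⊗[W] B01) F]
  [IsScalarTower (L ⊗[W] B0) (E ⊗[W] B0) F] [IsScalarTower (L ⊗[W] B1) (E ⊗[W] B1) F]
  [IsScalarTower (L ⊗[W] B01) (E ⊗[W] B01) F]
  [Algebra (O ⊗[W] B0) F] [Algebra (O ⊗[W] B1) F] [Algebra (O ⊗[W] B01) F]
  [IsScalarTower (O ⊗[W] B0) (O ⊗[W] B01) F] [IsScalarTower (O ⊗[W] B1) (O ⊗[W] B01) F]
  [IsScalarTower (O ⊗[W] B0) (E ⊗[W] B0) F] [IsScalarTower (O ⊗[W] B1) (E ⊗[W] B1) F]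
  [IsScalarTower (O ⊗[W] B01) (E ⊗[W] B01) F]

/-- **AD-3, hub form.**  `O` (the complete DVR `O_E`), `L` (the number field) and `E` (the `p`-adic
field) are `W`-algebras with `O → E`, `L → E`; `F` is a field over the chart rings of `X_E`.  If the
extension `M̂` on `X_O` and the global framed line `(M_L, ε_L)` on `X_L` have the same image in
`Pic X_E`, then `M̂` has a nonzero framing whose (invertible) frames generate, over the chart rings
of `X_E`, the same submodules of `F` as the frames of `(M_L, ε_L)`. -/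
theorem exists_framing_of_map_eq
    {ML : QC2 L (L ⊗[W] B0) (L ⊗[W] B1) (L ⊗[W] B01)} (hML : ML.IsLine)
    (εL : ML.N01 →ₗ[L ⊗[W] B01] F) (hεL : εL ≠ 0)
    {Mh : QC2 O (O ⊗[W] B0) (O ⊗[W] B1) (O ⊗[W] B01)} (hMh : Mh.IsLine)
    (hinj : Function.Injective (algebraMap (O ⊗[W] B0) F))
    (h : PicX.map c0 O E (LinePic.mk (c0.baseChange O) Mh hMh) =
      PicX.map c0 L E (LinePic.mk (c0.baseChange L) ML hML)) :
    ∃ εh : Mh.N01 →ₗ[O ⊗[W] B01] F, εh ≠ 0 ∧
      Submodule.span (E ⊗[W] B0) (frame0 Mh εh : Set F) =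
        Submodule.span (E ⊗[W] B0) (frame0 ML εL : Set F) ∧
      Submodule.span (E ⊗[W] B1) (frame1 Mh εh : Set F) =
        Submodule.span (E ⊗[W] B1) (frame1 ML εL : Set F) ∧
      (∃ J0 : Submodule (O ⊗[W] B0) F, frame0 Mh εh * J0 = 1) ∧
      (∃ J1 : Submodule (O ⊗[W] B1) F, frame1 Mh εh * J1 = 1) :=
  exists_framing_of_bc_eq (square_comm W L E B0 B01) (square_comm W L E B1 B01)
    (square_comm W O E B0 B01) (square_comm W O E B1 B01)
    (c0.baseChange L) (c0.baseChange O) (c0.baseChange E) hML εL hεL hMh hinj h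

end Hub

end Fermat.Agent.T1B.AD74.Main
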