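/-
Programme T1B (row 38 via S44), cell AD (ALG-DESCENT), helper74: THE LINE WITH GIVEN FRAMES.

For a two-chart ring `(A, R0, R1, R01)`, a field `F` which is an algebra over the chart rings, and
`R_j`-submodules `I0, I1 ⊆ F` generating the same `R01`-submodule (`h`):

* `constQC c`              : the constant two-chart module `F`;
* `ofFrames c I0 I1 h`     : the two-chart submodule of `F` with chart modules `I0`, `I1`;
* `incl c I0 I1 h`         : its tautological framing; `frame0_ofFrames`, `frame1_ofFrames`:
                             its frames are `I0`, `I1`;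
* `isLine_ofFrames`        : it is a line when `I0`, `I1` are invertible submodules;
* `span_frame0_eq_range`, `span_frame1_eq_range`, `span_frame0_eq_span_frame1` : the frames of a
  framed module generate the same `R01`-submodule (the image of the framing);
* **`nonempty_iso_ofFrames`** : a framed line with invertible frames is isomorphic to `ofFrames` of
  its frames; **`nonempty_iso_of_frame_eq`** : two framed lines with the same (invertible) frames
  are isomorphic; `mk_eq_of_frame_eq` : their classes in `LinePic c` are equal.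
-/
import Mathlib
import Fermat.Agent.T1B.Hol31.Frame

set_option autoImplicit false
set_option linter.unusedSectionVars false
set_option linter.style.haveILetI false

universe u

open TensorProduct

namespace Fermat.Agent.T1B.AD74.OfFrames

open Fermat.Agent.Jac Fermat.Agent.Jac.LineOps39 Fermat.Agent.Jac.JGroup85Pic
open Fermat.Agent.T1B.Hol31.Frame

variable {A R0 R1 R01 : Type u} [CommRing A] [CommRing R0] [CommRing R1] [CommRing R01]
  [Algebra A R0] [Algebra A R1] [Algebra A R01] [Algebra R0 R01] [Algebra R1 R01]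
  [IsScalarTower A R0 R01] [IsScalarTower A R1 R01]
  {F : Type u} [Field F] [Algebra R0 F] [Algebra R1 F] [Algebra R01 F]
  [IsScalarTower R0 R01 F] [IsScalarTower R1 R01 F]

/-! ### The frames generate the image of the framing -/

theorem span_frame0_eq_range (M : QC2 A R0 R1 R01) (ε : M.N01 →ₗ[R01] F) :
    Submodule.span R01 (frame0 M ε : Set F) = LinearMap.range ε := by
  apply le_antisymm
  · rw [Submodule.span_le]
    intro z hz
    obtain ⟨x, rfl⟩ := mem_frame0.mp hz
    exact ⟨_, rfl⟩
  · rintro _ ⟨y, rfl⟩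
    refine M.bc0.inductionOn y (fun y => ε y ∈ Submodule.span R01 (frame0 M ε : Set F)) ?_ ?_ ?_ ?_
    · show ε 0 ∈ _
      rw [map_zero]; exact Submodule.zero_mem _
    · intro x
      exact Submodule.subset_span (mem_frame0.mpr ⟨x, rfl⟩)
    · intro r a ha
      show ε (r • a) ∈ _
      rw [map_smul]; exact Submodule.smul_mem _ r ha
    · intro a b ha hb
      show ε (a + b) ∈ _
      rw [map_add]; exact Submodule.add_mem _ ha hb

theorem span_frame1_eq_range (M : QC2 A R0 R1 R01) (ε : M.N01 →ₗ[R01] F) :
    Submodule.span R01 (frame1 M ε : Set F) = LinearMap.range ε := by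
  apply le_antisymm
  · rw [Submodule.span_le]
    intro z hz
    obtain ⟨x, rfl⟩ := mem_frame1.mp hz
    exact ⟨_, rfl⟩
  · rintro _ ⟨y, rfl⟩
    refine M.bc1.inductionOn y (fun y => ε y ∈ Submodule.span R01 (frame1 M ε : Set F)) ?_ ?_ ?_ ?_
    · show ε 0 ∈ _
      rw [map_zero]; exact Submodule.zero_mem _
    · intro x
      exact Submodule.subset_span (mem_frame1.mpr ⟨x, rfl⟩)
    · intro r a ha
      show ε (r • a) ∈ _
      rw [map_smul]; exact Submodule.smul_mem _ r ha
    · intro a b ha hb
      show ε (a + b) ∈ _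
      rw [map_add]; exact Submodule.add_mem _ ha hb

/-- The two frames of a framed module generate the same submodule on the overlap. -/
theorem span_frame0_eq_span_frame1 (M : QC2 A R0 R1 R01) (ε : M.N01 →ₗ[R01] F) :
    Submodule.span R01 (frame0 M ε : Set F) = Submodule.span R01 (frame1 M ε : Set F) := by
  rw [span_frame0_eq_range, span_frame1_eq_range]

/-! ### The constant module and the line with given frames -/

section Const

variable [Algebra A F] [IsScalarTower A R0 F] [IsScalarTower A R1 F] [IsScalarTower A R01 F]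

variable (F) in
/-- The constant two-chart module `F`. -/
abbrev constQC (c : TwoChart A R0 R1 R01) : QC2 A R0 R1 R01 where
  N0 := F
  N1 := F
  N01 := F
  r0 := LinearMap.id
  r1 := LinearMap.id
  bc0 :=
    have := c.away0
    (isLocalizedModule_iff_isBaseChange (Submonoid.powers c.t) R01 _).mp
      (isLocalizedModule_id (Submonoid.powers c.t) F R01)
  bc1 :=
    have := c.away1
    (isLocalizedModule_iff_isBaseChange (Submonoid.powers c.s) R01 _).mp
      (isLocalizedModule_id (Submonoid.powers c.s) F R01)

/-- The sub-pair of the constant module given by two frames. -/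
def framePair (c : TwoChart A R0 R1 R01) (I0 : Submodule R0 F) (I1 : Submodule R1 F)
    (h : Submodule.span R01 (I0 : Set F) = Submodule.span R01 (I1 : Set F)) :
    SubPair (constQC F c) where
  S0 := I0
  S1 := I1
  compat := by
    have e0 : ((constQC F c).r0 '' (I0 : Set F)) = (I0 : Set F) := Set.image_id _
    have e1 : ((constQC F c).r1 '' (I1 : Set F)) = (I1 : Set F) := Set.image_id _
    rw [e0, e1]
    exact h

/-- **The two-chart module with frames `I0`, `I1`.** -/
def ofFrames (c : TwoChart A R0 R1 R01) (I0 : Submodule R0 F) (I1 : Submodule R1 F)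
    (h : Submodule.span R01 (I0 : Set F) = Submodule.span R01 (I1 : Set F)) : QC2 A R0 R1 R01 :=
  sub c (constQC F c) (framePair c I0 I1 h)

/-- The tautological framing of `ofFrames`. -/
def incl (c : TwoChart A R0 R1 R01) (I0 : Submodule R0 F) (I1 : Submodule R1 F)
    (h : Submodule.span R01 (I0 : Set F) = Submodule.span R01 (I1 : Set F)) :
    (ofFrames c I0 I1 h).N01 →ₗ[R01] F :=
  (framePair c I0 I1 h).S01.subtype

theorem incl_r0 (c : TwoChart A R0 R1 R01) (I0 : Submodule R0 F) (I1 : Submodule R1 F)
    (h : Submodule.span R01 (I0 : Set F) = Submodule.span R01 (I1 : Set F)) (x : I0) :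
    incl c I0 I1 h ((ofFrames c I0 I1 h).r0 x) = (x : F) := rfl

theorem incl_r1 (c : TwoChart A R0 R1 R01) (I0 : Submodule R0 F) (I1 : Submodule R1 F)
    (h : Submodule.span R01 (I0 : Set F) = Submodule.span R01 (I1 : Set F)) (x : I1) :
    incl c I0 I1 h ((ofFrames c I0 I1 h).r1 x) = (x : F) := rfl

theorem incl_injective (c : TwoChart A R0 R1 R01) (I0 : Submodule R0 F) (I1 : Submodule R1 F)
    (h : Submodule.span R01 (I0 : Set F) = Submodule.span R01 (I1 : Set F)) :
    Function.Injective (incl c I0 I1 h) :=
  Subtype.val_injective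

theorem frame0_ofFrames (c : TwoChart A R0 R1 R01) (I0 : Submodule R0 F) (I1 : Submodule R1 F)
    (h : Submodule.span R01 (I0 : Set F) = Submodule.span R01 (I1 : Set F)) :
    frame0 (ofFrames c I0 I1 h) (incl c I0 I1 h) = I0 := by
  ext z
  rw [mem_frame0]
  constructor
  · rintro ⟨x, rfl⟩
    rw [incl_r0]
    exact x.2
  · intro hz
    exact ⟨⟨z, hz⟩, incl_r0 c I0 I1 h ⟨z, hz⟩⟩

theorem frame1_ofFrames (c : TwoChart A R0 R1 R01) (I0 : Submodule R0 F) (I1 : Submodule R1 F)
    (h : Submodule.span R01 (I0 : Set F) = Submodule.span R01 (I1 : Set F)) :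
    frame1 (ofFrames c I0 I1 h) (incl c I0 I1 h) = I1 := by
  ext z
  rw [mem_frame1]
  constructor
  · rintro ⟨x, rfl⟩
    rw [incl_r1]
    exact x.2
  · intro hz
    exact ⟨⟨z, hz⟩, incl_r1 c I0 I1 h ⟨z, hz⟩⟩

end Const

/-! ### Invertible submodules are invertible modules -/

/-- A submodule of `F` with an inverse is an invertible module (`R → F` injective). -/
theorem invertible_of_mul_eq_one {R : Type*} [CommRing R] [Algebra R F]
    (hinj : Function.Injective (algebraMap R F)) {I J : Submodule R F} (h : I * J = 1) :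
    Module.Invertible R I := by
  haveI : FaithfulSMul R F := (faithfulSMul_iff_algebraMap_injective R F).mpr hinj
  have := (inferInstance : Module.Invertible R (Units.mkOfMulEqOne I J h : Submodule R F))
  exact this

section Line

variable [Algebra A F] [IsScalarTower A R0 F] [IsScalarTower A R1 F] [IsScalarTower A R01 F]

/-- `ofFrames` is a line when both frames are invertible. -/
theorem isLine_ofFrames (c : TwoChart A R0 R1 R01) (I0 : Submodule R0 F) (I1 : Submodule R1 F)
    (h : Submodule.span R01 (I0 : Set F) = Submodule.span R01 (I1 : Set F))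
    (hinj0 : Function.Injective (algebraMap R0 F)) (hinj1 : Function.Injective (algebraMap R1 F))
    {J0 : Submodule R0 F} {J1 : Submodule R1 F} (h0 : I0 * J0 = 1) (h1 : I1 * J1 = 1) :
    (ofFrames c I0 I1 h).IsLine :=
  ⟨invertible_of_mul_eq_one hinj0 h0, invertible_of_mul_eq_one hinj1 h1⟩

/-- **A framed line with invertible frames is `ofFrames` of its frames.** -/
theorem nonempty_iso_ofFrames (c : TwoChart A R0 R1 R01) {M : QC2 A R0 R1 R01} (hM : M.IsLine)
    (ε : M.N01 →ₗ[R01] F)
    (hinj0 : Function.Injective (algebraMap R0 F)) (hinj1 : Function.Injective (algebraMap R1 F))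
    {J0 : Submodule R0 F} {J1 : Submodule R1 F}
    (h0 : frame0 M ε * J0 = 1) (h1 : frame1 M ε * J1 = 1) :
    Nonempty (QC2.Iso M
      (ofFrames c (frame0 M ε) (frame1 M ε) (span_frame0_eq_span_frame1 M ε))) := by
  set N := ofFrames c (frame0 M ε) (frame1 M ε) (span_frame0_eq_span_frame1 M ε) with hN
  have hNl : N.IsLine :=
    isLine_ofFrames c _ _ (span_frame0_eq_span_frame1 M ε) hinj0 hinj1 h0 h1
  -- chart 0
  let f0 : M.N0 →ₗ[R0] N.N0 := ((ε.restrictScalars R0).comp M.r0).rangeRestrict
  have hf0 : Function.Surjective f0 := LinearMap.surjective_rangeRestrict _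
  haveI := hM.inv0
  haveI := hNl.inv0
  have hb0 : Function.Bijective f0 := Module.Invertible.bijective_of_surjective hf0
  let e0 : M.N0 ≃ₗ[R0] N.N0 := LinearEquiv.ofBijective f0 hb0
  -- chart 1
  let f1 : M.N1 →ₗ[R1] N.N1 := ((ε.restrictScalars R1).comp M.r1).rangeRestrict
  have hf1 : Function.Surjective f1 := LinearMap.surjective_rangeRestrict _
  haveI := hM.inv1
  haveI := hNl.inv1
  have hb1 : Function.Bijective f1 := Module.Invertible.bijective_of_surjective hf1
  let e1 : M.N1 ≃ₗ[R1] N.N1 := LinearEquiv.ofBijective f1 hb1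
  -- overlap
  have hmem : ∀ z : M.N01, ε z ∈ (framePair c (frame0 M ε) (frame1 M ε)
      (span_frame0_eq_span_frame1 M ε)).S01 := by
    intro z
    have h2 : ε z ∈ Submodule.span R01 (frame0 M ε : Set F) := by
      rw [span_frame0_eq_range]; exact ⟨z, rfl⟩
    have e : ((constQC F c).r0 '' (frame0 M ε : Set F)) = (frame0 M ε : Set F) := Set.image_id _
    show ε z ∈ Submodule.span R01 ((constQC F c).r0 '' (frame0 M ε : Set F))
    rw [e]
    exact h2
  let f01 : M.N01 →ₗ[R01] N.N01 := ε.codRestrict _ hmem
  have hf01 : Function.Surjective f01 := by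
    rintro ⟨y, hy⟩
    have e : ((constQC F c).r0 '' (frame0 M ε : Set F)) = (frame0 M ε : Set F) := Set.image_id _
    have hy' : y ∈ Submodule.span R01 (frame0 M ε : Set F) := by
      have : y ∈ Submodule.span R01 ((constQC F c).r0 '' (frame0 M ε : Set F)) := hy
      rwa [e] at this
    rw [span_frame0_eq_range] at hy'
    obtain ⟨z, rfl⟩ := hy'
    exact ⟨z, rfl⟩
  haveI : Module.Invertible R01 M.N01 := Module.Invertible.congr M.bc0.equiv
  haveI : Module.Invertible R01 N.N01 := Module.Invertible.congr N.bc0.equiv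
  have hb01 : Function.Bijective f01 := Module.Invertible.bijective_of_surjective hf01
  let e01 : M.N01 ≃ₗ[R01] N.N01 := LinearEquiv.ofBijective f01 hb01
  exact ⟨{ e0 := e0, e1 := e1, e01 := e01
           comm0 := fun x => Subtype.ext rfl
           comm1 := fun x => Subtype.ext rfl }⟩

/-- **Two framed lines with the same invertible frames are isomorphic.** -/
theorem nonempty_iso_of_frame_eq (c : TwoChart A R0 R1 R01) {M M' : QC2 A R0 R1 R01}
    (hM : M.IsLine) (hM' : M'.IsLine) (ε : M.N01 →ₗ[R01] F) (ε' : M'.N01 →ₗ[R01] F)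
    (hinj0 : Function.Injective (algebraMap R0 F)) (hinj1 : Function.Injective (algebraMap R1 F))
    {J0 : Submodule R0 F} {J1 : Submodule R1 F}
    (h0 : frame0 M ε * J0 = 1) (h1 : frame1 M ε * J1 = 1)
    (e0 : frame0 M ε = frame0 M' ε') (e1 : frame1 M ε = frame1 M' ε') :
    Nonempty (QC2.Iso M M') := by
  obtain ⟨φ⟩ := nonempty_iso_ofFrames c hM ε hinj0 hinj1 h0 h1
  have h0' : frame0 M' ε' * J0 = 1 := by rw [← e0]; exact h0
  have h1' : frame1 M' ε' * J1 = 1 := by rw [← e1]; exact h1
  obtain ⟨φ'⟩ := nonempty_iso_ofFrames c hM' ε' hinj0 hinj1 h0' h1'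
  have key : ∀ (I0 I0' : Submodule R0 F) (I1 I1' : Submodule R1 F) (hI0 : I0 = I0')
      (hI1 : I1 = I1') (h : Submodule.span R01 (I0 : Set F) = Submodule.span R01 (I1 : Set F))
      (h' : Submodule.span R01 (I0' : Set F) = Submodule.span R01 (I1' : Set F)),
      Nonempty (QC2.Iso (ofFrames c I0 I1 h) (ofFrames c I0' I1' h')) := by
    intro I0 I0' I1 I1' hI0 hI1 h h'
    subst hI0
    subst hI1
    exact ⟨{ e0 := LinearEquiv.refl _ _, e1 := LinearEquiv.refl _ _, e01 := LinearEquiv.refl _ _
             comm0 := fun _ => rfl, comm1 := fun _ => rfl }⟩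
  obtain ⟨ψ⟩ := key _ _ _ _ e0 e1 (span_frame0_eq_span_frame1 M ε)
    (span_frame0_eq_span_frame1 M' ε')
  exact ⟨{ e0 := (φ.e0.trans ψ.e0).trans φ'.e0.symm
           e1 := (φ.e1.trans ψ.e1).trans φ'.e1.symm
           e01 := (φ.e01.trans ψ.e01).trans φ'.e01.symm
           comm0 := fun x => by
             show φ'.e01.symm (ψ.e01 (φ.e01 (M.r0 x))) = M'.r0 (φ'.e0.symm (ψ.e0 (φ.e0 x)))
             rw [φ.comm0, ψ.comm0, LinearEquiv.symm_apply_eq, φ'.comm0,
               LinearEquiv.apply_symm_apply]
           comm1 := fun x => by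
             show φ'.e01.symm (ψ.e01 (φ.e01 (M.r1 x))) = M'.r1 (φ'.e1.symm (ψ.e1 (φ.e1 x)))
             rw [φ.comm1, ψ.comm1, LinearEquiv.symm_apply_eq, φ'.comm1,
               LinearEquiv.apply_symm_apply] }⟩

end Line

end Fermat.Agent.T1B.AD74.OfFrames
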