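/-
Programme T1B (row 38 via S44), cell AD (ALG-DESCENT), helper74: THE OVERLAP COMPATIBILITY OF THE
DESCENDED FRAMES (Mathlib + `AD74/ChartDescent` general lemmas only).

Three levels of (two chart rings `a`, `b` and their overlap ring `c`): `R` (algebraic integral),
`S = R[1/π]` (generic fibre), `R̂` (completed), fields `F ⊇ S_c`, `F̂ ⊇ R̂_c`, `ι : F → F̂`.

* `mul_le_one` : for `I_a ⊆ F` (over `R_a`), `J_b ⊆ F` (over `R_b`) which lie in frames
  `I_{K,a}`, `J_{K,b}` of the generic fibre and whose images lie in frames `Î_a`, `Ĵ_b` of the completed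
  fibre, where the frames on `a` and `b` generate the same overlap modules and are inverse to each
  other on `b`:  `R_c I_a * R_c J_b ≤ 1`, from the saturation property `sat` on the OVERLAP ring.
* `span_eq_of_mul_le_one` : `I_a J_a = 1`, `I_b J_b = 1`, `R_c I_a * R_c J_b ≤ 1`, `R_c I_b * R_c J_a ≤ 1`
  imply `R_c I_a = R_c I_b`.
-/
import Mathlib
import Fermat.Agent.T1B.AD74.ChartDescent

set_option autoImplicit false
set_option linter.unusedSectionVars false

namespace Fermat.Agent.T1B.AD74.Overlap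

open Fermat.Agent.T1B.AD74.ChartDescent
open scoped Pointwise

section MulLe

variable {Ra Rb Rc Sa Sb Sc Rha Rhb Rhc F Fh : Type*}
  [CommRing Ra] [CommRing Rb] [CommRing Rc] [CommRing Sa] [CommRing Sb] [CommRing Sc]
  [CommRing Rha] [CommRing Rhb] [CommRing Rhc] [Field F] [Field Fh]
  [Algebra Ra F] [Algebra Rb F] [Algebra Rc F]
  [Algebra Sa Sc] [Algebra Sb Sc] [Algebra Sa F] [Algebra Sb F] [Algebra Sc F]
  [IsScalarTower Sa Sc F] [IsScalarTower Sb Sc F]
  [Algebra Rc Sc] [IsScalarTower Rc Sc F]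
  [Algebra Rha Rhc] [Algebra Rhb Rhc] [Algebra Rha Fh] [Algebra Rhb Fh] [Algebra Rhc Fh]
  [IsScalarTower Rha Rhc Fh] [IsScalarTower Rhb Rhc Fh]

/-- **The product of a descended frame on chart `a` and a descended inverse frame on chart `b` is
integral on the overlap.** -/
theorem mul_le_one (ι : F →+* Fh) (π : Rc)
    (hsat : ∀ (x : F) (n : ℕ), algebraMap Rc F π ^ n * x ∈ Set.range (algebraMap Rc F) →
      ι x ∈ Set.range (algebraMap Rhc Fh) → x ∈ Set.range (algebraMap Rc F))
    (hSc : ∀ s : Sc, ∃ (n : ℕ) (r : Rc), algebraMap Rc Sc π ^ n * s = algebraMap Rc Sc r)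
    {Ia : Submodule Ra F} {Jb : Submodule Rb F}
    {IKa : Submodule Sa F} {IKb JKb : Submodule Sb F}
    (hIa : ∀ x ∈ Ia, x ∈ IKa) (hJb : ∀ x ∈ Jb, x ∈ JKb)
    (hKab : Submodule.span Sc (IKa : Set F) = Submodule.span Sc (IKb : Set F))
    (hKb : IKb * JKb = 1)
    {Iha : Submodule Rha Fh} {Ihb Jhb : Submodule Rhb Fh}
    (hιIa : ∀ x ∈ Ia, ι x ∈ Iha) (hιJb : ∀ x ∈ Jb, ι x ∈ Jhb)
    (hhab : Submodule.span Rhc (Iha : Set Fh) = Submodule.span Rhc (Ihb : Set Fh))
    (hhb : Ihb * Jhb = 1) :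
    Submodule.span Rc (Ia : Set F) * Submodule.span Rc (Jb : Set F) ≤ 1 := by
  rw [Submodule.span_mul_span, Submodule.span_le]
  rintro _ ⟨a, ha, b, hb, rfl⟩
  show a * b ∈ (1 : Submodule Rc F)
  -- generic fibre
  have h1 : a * b ∈ (1 : Submodule Sc F) := by
    have ha' : a ∈ Submodule.span Sc (IKb : Set F) := by
      rw [← hKab]; exact Submodule.subset_span (hIa a ha)
    have hb' : b ∈ Submodule.span Sc (JKb : Set F) := Submodule.subset_span (hJb b hb)
    have := Submodule.mul_mem_mul ha' hb'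
    rwa [span_mul_span_tower, hKb, span_one_tower] at this
  -- completed fibre
  have h2 : ι (a * b) ∈ (1 : Submodule Rhc Fh) := by
    have ha' : ι a ∈ Submodule.span Rhc (Ihb : Set Fh) := by
      rw [← hhab]; exact Submodule.subset_span (hιIa a ha)
    have hb' : ι b ∈ Submodule.span Rhc (Jhb : Set Fh) := Submodule.subset_span (hιJb b hb)
    have := Submodule.mul_mem_mul ha' hb'
    rwa [span_mul_span_tower, hhb, span_one_tower, ← map_mul] at this
  obtain ⟨s, hs⟩ := Submodule.mem_one.mp h1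
  obtain ⟨n, r, hnr⟩ := hSc s
  have h3 : algebraMap Rc F π ^ n * (a * b) ∈ Set.range (algebraMap Rc F) := by
    refine ⟨r, ?_⟩
    rw [← hs, IsScalarTower.algebraMap_apply Rc Sc F r, ← hnr, map_mul, map_pow,
      ← IsScalarTower.algebraMap_apply Rc Sc F]
  obtain ⟨y, hy⟩ := hsat (a * b) n h3 (Submodule.mem_one.mp h2)
  exact Submodule.mem_one.mpr ⟨y, hy⟩

end MulLe

section SpanEq

variable {Ra Rb Rc F : Type*} [CommRing Ra] [CommRing Rb] [CommRing Rc] [Field F]
  [Algebra Ra Rc] [Algebra Rb Rc] [Algebra Ra F] [Algebra Rb F] [Algebra Rc F]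
  [IsScalarTower Ra Rc F] [IsScalarTower Rb Rc F]

/-- **The descended frames agree on the overlap.** -/
theorem span_eq_of_mul_le_one {Ia Ja : Submodule Ra F} {Ib Jb : Submodule Rb F}
    (ha : Ia * Ja = 1) (hb : Ib * Jb = 1)
    (h1 : Submodule.span Rc (Ia : Set F) * Submodule.span Rc (Jb : Set F) ≤ 1)
    (h2 : Submodule.span Rc (Ib : Set F) * Submodule.span Rc (Ja : Set F) ≤ 1) :
    Submodule.span Rc (Ia : Set F) = Submodule.span Rc (Ib : Set F) := by
  set A := Submodule.span Rc (Ia : Set F) with hA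
  set A' := Submodule.span Rc (Ja : Set F) with hA'
  set B := Submodule.span Rc (Ib : Set F) with hB
  set B' := Submodule.span Rc (Jb : Set F) with hB'
  have eA : A * A' = 1 := by rw [hA, hA', span_mul_span_tower, ha, span_one_tower]
  have eB : B * B' = 1 := by rw [hB, hB', span_mul_span_tower, hb, span_one_tower]
  have eQ : (A * B') * (B * A') = 1 := by
    calc (A * B') * (B * A') = (A * A') * (B * B') := by ring
      _ = 1 := by rw [eA, eB, one_mul]
  have hQ : A * B' = 1 := by
    apply le_antisymm h1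
    calc (1 : Submodule Rc F) = (A * B') * (B * A') := eQ.symm
      _ ≤ (A * B') * 1 := mul_le_mul_right h2 _
      _ = A * B' := mul_one _
  calc A = A * (B' * B) := by rw [mul_comm B' B, eB, mul_one]
    _ = (A * B') * B := by rw [mul_assoc]
    _ = B := by rw [hQ, one_mul]

end SpanEq

end Fermat.Agent.T1B.AD74.Overlap
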