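/-
Programme T1B (row 38 via S44), cell AD (ALG-DESCENT), helper74: **THE GLUING THEOREM**
`Pic X_R ↠ Pic X_S ×_{Pic X_T} Pic X_R̂` for four cubes of two-chart rings

      R ──→ S            R = O_L ⊗ B_j   (algebraic DVR `O_L = A ∩ L`)
      │     │            S = L ⊗ B_j     (generic fibre, `S = R[1/π]`)
      ↓     ↓            R̂ = Ô ⊗ B_j     (completion `Ô = O_{E_L}`)
      R̂ ──→ T            T = E ⊗ B_j     (`T = R̂[1/π]`)

and fields `S_j → F`, `T_j → F̂`, `ι : F → F̂`.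

`exists_glue_aux` (all algebra structures as instance hypotheses): a line `M̂` on `X_R̂` and a line
`M_L` on `X_S` with the same class on `X_T` come from a line `M` on `X_R`:
`[M ⊗ S] = [M_L]` and `[M ⊗ R̂] = [M̂]`.

Proof: frame `M_L` in `F` (`Hol31.Frame`), transport the framing to `M̂` (`AD74/Main`), descend the
frames chart by chart (`AD74/ChartDescent` on helper21's `AD21/Frames`), check the overlap
(`AD74/Overlap`), build the line with the descended frames (`AD74/OfFrames`) and compare frames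
(`AD74/FrameBC`, `OfFrames.nonempty_iso_of_frame_eq`).  No `p`-torsion hypothesis is used.
-/
import Mathlib
import Fermat.Agent.T1B.AD74.Main
import Fermat.Agent.T1B.AD74.OfFrames
import Fermat.Agent.T1B.AD74.ChartDescent
import Fermat.Agent.T1B.AD74.Overlap

set_option autoImplicit false
set_option linter.unusedSectionVars false
set_option linter.unusedVariables false

universe u

open TensorProduct

namespace Fermat.Agent.T1B.AD74.Glue

open Fermat.Agent.Jac Fermat.Agent.Jac.LineOps39 Fermat.Agent.Jac.JGroup85Pic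
open Fermat.Agent.Jac.JSmooth85Alg Fermat.Agent.Jac.BaseChange75 Fermat.Agent.T1B.Hol31.Frame
open Fermat.Agent.T1B.AD74.FrameBC Fermat.Agent.T1B.AD74.FrameInv Fermat.Agent.T1B.AD74.Main
open Fermat.Agent.T1B.AD74.OfFrames Fermat.Agent.T1B.AD74.ChartDescent
open Fermat.Agent.T1B.AD74.Overlap Fermat.Agent.T1B.AD21.Frames

/-! ### Transport of a framing along a field embedding -/

section MapFraming

variable {A R0 R1 R01 : Type u} [CommRing A] [CommRing R0] [CommRing R1] [CommRing R01]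
  [Algebra A R0] [Algebra A R1] [Algebra A R01] [Algebra R0 R01] [Algebra R1 R01]
  [IsScalarTower A R0 R01] [IsScalarTower A R1 R01]
  {F Fh : Type u} [Field F] [Field Fh]
  [Algebra R0 F] [Algebra R1 F] [Algebra R01 F] [IsScalarTower R0 R01 F] [IsScalarTower R1 R01 F]
  [Algebra R0 Fh] [Algebra R1 Fh] [Algebra R01 Fh] [IsScalarTower R0 R01 Fh]
  [IsScalarTower R1 R01 Fh]

/-- The framing `ι ∘ ε` into a bigger field. -/
def mapFraming (ι : F →+* Fh) (hι : ∀ r : R01, ι (algebraMap R01 F r) = algebraMap R01 Fh r)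
    {M : QC2 A R0 R1 R01} (ε : M.N01 →ₗ[R01] F) : M.N01 →ₗ[R01] Fh where
  toFun x := ι (ε x)
  map_add' x y := by rw [map_add, map_add]
  map_smul' r x := by
    rw [map_smul, Algebra.smul_def, map_mul, hι, RingHom.id_apply, ← Algebra.smul_def]

theorem mapFraming_apply (ι : F →+* Fh)
    (hι : ∀ r : R01, ι (algebraMap R01 F r) = algebraMap R01 Fh r)
    {M : QC2 A R0 R1 R01} (ε : M.N01 →ₗ[R01] F) (x : M.N01) :
    mapFraming ι hι ε x = ι (ε x) := rfl

theorem mapFraming_ne_zero (ι : F →+* Fh)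
    (hι : ∀ r : R01, ι (algebraMap R01 F r) = algebraMap R01 Fh r)
    {M : QC2 A R0 R1 R01} {ε : M.N01 →ₗ[R01] F} (hε : ε ≠ 0) : mapFraming ι hι ε ≠ 0 := by
  intro h0
  apply hε
  apply LinearMap.ext
  intro x
  have h1 : mapFraming ι hι ε x = 0 := by rw [h0, LinearMap.zero_apply]
  rw [mapFraming_apply] at h1
  rw [LinearMap.zero_apply]
  exact ι.injective (by rw [h1, map_zero])

theorem coe_frame0_mapFraming (ι : F →+* Fh)
    (hι : ∀ r : R01, ι (algebraMap R01 F r) = algebraMap R01 Fh r)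
    {M : QC2 A R0 R1 R01} (ε : M.N01 →ₗ[R01] F) :
    (frame0 M (mapFraming ι hι ε) : Set Fh) = ι '' (frame0 M ε : Set F) := by
  ext z
  constructor
  · intro hz
    obtain ⟨x, rfl⟩ := mem_frame0.mp hz
    exact ⟨ε (M.r0 x), mem_frame0.mpr ⟨x, rfl⟩, rfl⟩
  · rintro ⟨y, hy, rfl⟩
    obtain ⟨x, rfl⟩ := mem_frame0.mp hy
    exact mem_frame0.mpr ⟨x, rfl⟩

theorem coe_frame1_mapFraming (ι : F →+* Fh)
    (hι : ∀ r : R01, ι (algebraMap R01 F r) = algebraMap R01 Fh r)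
    {M : QC2 A R0 R1 R01} (ε : M.N01 →ₗ[R01] F) :
    (frame1 M (mapFraming ι hι ε) : Set Fh) = ι '' (frame1 M ε : Set F) := by
  ext z
  constructor
  · intro hz
    obtain ⟨x, rfl⟩ := mem_frame1.mp hz
    exact ⟨ε (M.r1 x), mem_frame1.mpr ⟨x, rfl⟩, rfl⟩
  · rintro ⟨y, hy, rfl⟩
    obtain ⟨x, rfl⟩ := mem_frame1.mp hy
    exact mem_frame1.mpr ⟨x, rfl⟩

end MapFraming

/-! ### The gluing theorem, all structures explicit -/

section Aux

variable {AR R0 R1 R01 AS S0 S1 S01 ARh Rh0 Rh1 Rh01 AT T0 T1 T01 : Type u}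
  [CommRing AR] [CommRing R0] [CommRing R1] [CommRing R01]
  [Algebra AR R0] [Algebra AR R1] [Algebra AR R01] [Algebra R0 R01] [Algebra R1 R01]
  [IsScalarTower AR R0 R01] [IsScalarTower AR R1 R01]
  [CommRing AS] [CommRing S0] [CommRing S1] [CommRing S01]
  [Algebra AS S0] [Algebra AS S1] [Algebra AS S01] [Algebra S0 S01] [Algebra S1 S01]
  [IsScalarTower AS S0 S01] [IsScalarTower AS S1 S01]
  [CommRing ARh] [CommRing Rh0] [CommRing Rh1] [CommRing Rh01]
  [Algebra ARh Rh0] [Algebra ARh Rh1] [Algebra ARh Rh01] [Algebra Rh0 Rh01] [Algebra Rh1 Rh01]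
  [IsScalarTower ARh Rh0 Rh01] [IsScalarTower ARh Rh1 Rh01]
  [CommRing AT] [CommRing T0] [CommRing T1] [CommRing T01]
  [Algebra AT T0] [Algebra AT T1] [Algebra AT T01] [Algebra T0 T01] [Algebra T1 T01]
  [IsScalarTower AT T0 T01] [IsScalarTower AT T1 T01]
  -- the four cube maps
  [Algebra R0 S0] [Algebra R1 S1] [Algebra R01 S01]
  [Algebra R0 Rh0] [Algebra R1 Rh1] [Algebra R01 Rh01]
  [Algebra S0 T0] [Algebra S1 T1] [Algebra S01 T01]
  [Algebra Rh0 T0] [Algebra Rh1 T1] [Algebra Rh01 T01]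
  {F Fh : Type u} [Field F] [Field Fh]
  -- `F` over `S` and `R`
  [Algebra S0 F] [Algebra S1 F] [Algebra S01 F] [IsScalarTower S0 S01 F] [IsScalarTower S1 S01 F]
  [Algebra R0 F] [Algebra R1 F] [Algebra R01 F] [IsScalarTower R0 R01 F] [IsScalarTower R1 R01 F]
  [IsScalarTower R0 S0 F] [IsScalarTower R1 S1 F] [IsScalarTower R01 S01 F]
  [Algebra AS F] [IsScalarTower AS S0 F] [IsScalarTower AS S1 F] [IsScalarTower AS S01 F]
  [Algebra AR F] [IsScalarTower AR R0 F] [IsScalarTower AR R1 F] [IsScalarTower AR R01 F]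
  -- `F̂` over `T`, `S`, `R̂`, `R`
  [Algebra T0 Fh] [Algebra T1 Fh] [Algebra T01 Fh] [IsScalarTower T0 T01 Fh]
  [IsScalarTower T1 T01 Fh]
  [Algebra S0 Fh] [Algebra S1 Fh] [Algebra S01 Fh] [IsScalarTower S0 S01 Fh]
  [IsScalarTower S1 S01 Fh]
  [IsScalarTower S0 T0 Fh] [IsScalarTower S1 T1 Fh] [IsScalarTower S01 T01 Fh]
  [Algebra Rh0 Fh] [Algebra Rh1 Fh] [Algebra Rh01 Fh] [IsScalarTower Rh0 Rh01 Fh]
  [IsScalarTower Rh1 Rh01 Fh]
  [IsScalarTower Rh0 T0 Fh] [IsScalarTower Rh1 T1 Fh] [IsScalarTower Rh01 T01 Fh]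
  [Algebra R0 Fh] [Algebra R1 Fh] [Algebra R01 Fh] [IsScalarTower R0 R01 Fh]
  [IsScalarTower R1 R01 Fh]
  [IsScalarTower R0 Rh0 Fh] [IsScalarTower R1 Rh1 Fh] [IsScalarTower R01 Rh01 Fh]
  [Algebra ARh Fh] [IsScalarTower ARh Rh0 Fh] [IsScalarTower ARh Rh1 Fh]
  [IsScalarTower ARh Rh01 Fh]

/-- **The gluing theorem** (all algebra structures as instance hypotheses). -/
theorem exists_glue_aux
    (hcRS0 : (algebraMap S0 S01).comp (algebraMap R0 S0) =
      (algebraMap R01 S01).comp (algebraMap R0 R01))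
    (hcRS1 : (algebraMap S1 S01).comp (algebraMap R1 S1) =
      (algebraMap R01 S01).comp (algebraMap R1 R01))
    (hcRRh0 : (algebraMap Rh0 Rh01).comp (algebraMap R0 Rh0) =
      (algebraMap R01 Rh01).comp (algebraMap R0 R01))
    (hcRRh1 : (algebraMap Rh1 Rh01).comp (algebraMap R1 Rh1) =
      (algebraMap R01 Rh01).comp (algebraMap R1 R01))
    (hcST0 : (algebraMap T0 T01).comp (algebraMap S0 T0) =
      (algebraMap S01 T01).comp (algebraMap S0 S01))
    (hcST1 : (algebraMap T1 T01).comp (algebraMap S1 T1) =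
      (algebraMap S01 T01).comp (algebraMap S1 S01))
    (hcRhT0 : (algebraMap T0 T01).comp (algebraMap Rh0 T0) =
      (algebraMap Rh01 T01).comp (algebraMap Rh0 Rh01))
    (hcRhT1 : (algebraMap T1 T01).comp (algebraMap Rh1 T1) =
      (algebraMap Rh01 T01).comp (algebraMap Rh1 Rh01))
    (cR : TwoChart AR R0 R1 R01) (cS : TwoChart AS S0 S1 S01)
    (cRh : TwoChart ARh Rh0 Rh1 Rh01) (cT : TwoChart AT T0 T1 T01)
    (ι : F →+* Fh)
    (hιS0 : ∀ s : S0, ι (algebraMap S0 F s) = algebraMap S0 Fh s)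
    (hιS1 : ∀ s : S1, ι (algebraMap S1 F s) = algebraMap S1 Fh s)
    (hιS01 : ∀ s : S01, ι (algebraMap S01 F s) = algebraMap S01 Fh s)
    (hιR01 : ∀ r : R01, ι (algebraMap R01 F r) = algebraMap R01 Fh r)
    (hsq0 : ∀ r : R0, algebraMap S0 T0 (algebraMap R0 S0 r) = algebraMap Rh0 T0 (algebraMap R0 Rh0 r))
    (hsq1 : ∀ r : R1, algebraMap S1 T1 (algebraMap R1 S1 r) = algebraMap Rh1 T1 (algebraMap R1 Rh1 r))
    (π0 : R0) (π1 : R1) (π01 : R01)
    (hu0 : IsUnit (algebraMap R0 S0 π0)) (hu1 : IsUnit (algebraMap R1 S1 π1))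
    (hS0 : ∀ s : S0, ∃ (n : ℕ) (r : R0), algebraMap R0 S0 π0 ^ n * s = algebraMap R0 S0 r)
    (hS1 : ∀ s : S1, ∃ (n : ℕ) (r : R1), algebraMap R1 S1 π1 ^ n * s = algebraMap R1 S1 r)
    (hS01 : ∀ s : S01, ∃ (n : ℕ) (r : R01),
      algebraMap R01 S01 π01 ^ n * s = algebraMap R01 S01 r)
    (hT0 : ∀ t : T0, ∃ (n : ℕ) (r : Rh0),
      algebraMap Rh0 T0 (algebraMap R0 Rh0 π0) ^ n * t = algebraMap Rh0 T0 r)
    (hT1 : ∀ t : T1, ∃ (n : ℕ) (r : Rh1),
      algebraMap Rh1 T1 (algebraMap R1 Rh1 π1) ^ n * t = algebraMap Rh1 T1 r)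
    (happ0 : ∀ (n : ℕ) (x : Rh0), ∃ (r : R0) (s : Rh0),
      x = algebraMap R0 Rh0 r + algebraMap R0 Rh0 π0 ^ n * s)
    (happ1 : ∀ (n : ℕ) (x : Rh1), ∃ (r : R1) (s : Rh1),
      x = algebraMap R1 Rh1 r + algebraMap R1 Rh1 π1 ^ n * s)
    (hsat0 : ∀ (n : ℕ) (r : R0), algebraMap R0 Rh0 r ∈ Ideal.span {algebraMap R0 Rh0 π0 ^ n} →
      r ∈ Ideal.span {π0 ^ n})
    (hsat1 : ∀ (n : ℕ) (r : R1), algebraMap R1 Rh1 r ∈ Ideal.span {algebraMap R1 Rh1 π1 ^ n} →
      r ∈ Ideal.span {π1 ^ n})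
    (hsat01 : ∀ (n : ℕ) (r : R01),
      algebraMap R01 Rh01 r ∈ Ideal.span {algebraMap R01 Rh01 π01 ^ n} → r ∈ Ideal.span {π01 ^ n})
    (hπ01 : algebraMap R01 F π01 ≠ 0)
    (hinjS0 : Function.Injective (algebraMap S0 F)) (hinjS1 : Function.Injective (algebraMap S1 F))
    (hinjR0 : Function.Injective (algebraMap R0 F)) (hinjR1 : Function.Injective (algebraMap R1 F))
    (hinjh0 : Function.Injective (algebraMap Rh0 Fh))
    (hinjh1 : Function.Injective (algebraMap Rh1 Fh))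
    (hinjh01 : Function.Injective (algebraMap Rh01 Fh))
    {ML : QC2 AS S0 S1 S01} (hML : ML.IsLine) {Mh : QC2 ARh Rh0 Rh1 Rh01} (hMh : Mh.IsLine)
    (h : LinePic.bc hcRhT0 hcRhT1 cRh cT (LinePic.mk cRh Mh hMh) =
      LinePic.bc hcST0 hcST1 cS cT (LinePic.mk cS ML hML)) :
    ∃ (M : QC2 AR R0 R1 R01) (hM : M.IsLine),
      LinePic.bc hcRS0 hcRS1 cR cS (LinePic.mk cR M hM) = LinePic.mk cS ML hML ∧
      LinePic.bc hcRRh0 hcRRh1 cR cRh (LinePic.mk cR M hM) = LinePic.mk cRh Mh hMh := by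
  -- 1. frame `M_L` in `F`
  obtain ⟨εL, hεL⟩ := exists_framing_ne_zero (F := F) hML hinjS0
  obtain ⟨⟨JK0, hK0⟩, ⟨JK1, hK1⟩⟩ := exists_frame_mul_eq_one cS hML hinjS0 εL hεL
  -- 2. transport the framing to `M̂`
  obtain ⟨εh, hεh, hsp0, hsp1, ⟨Jh0, hh0⟩, ⟨Jh1, hh1⟩⟩ :=
    exists_framing_of_bc_eq hcST0 hcST1 hcRhT0 hcRhT1 cS cRh cT hML (mapFraming ι hιS01 εL)
      (mapFraming_ne_zero ι hιS01 hεL) hMh hinjh0 h
  rw [coe_frame0_mapFraming] at hsp0
  rw [coe_frame1_mapFraming] at hsp1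
  -- 3. descend the frames chart by chart
  obtain ⟨I0, J0, hIJ0, hI0le, hJ0le, hI0S, hJ0S, hI0h, hJ0h⟩ :=
    chart_descent (R := R0) (S := S0) (Rh := Rh0) (T := T0) ι π0
      (fun s => by rw [hιS0, IsScalarTower.algebraMap_apply S0 T0 Fh]) hsq0 hu0 hS0 hT0 happ0 hsat0
      hinjh0 hK0 hh0 hsp0
  obtain ⟨I1, J1, hIJ1, hI1le, hJ1le, hI1S, hJ1S, hI1h, hJ1h⟩ :=
    chart_descent (R := R1) (S := S1) (Rh := Rh1) (T := T1) ι π1
      (fun s => by rw [hιS1, IsScalarTower.algebraMap_apply S1 T1 Fh]) hsq1 hu1 hS1 hT1 happ1 hsat1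
      hinjh1 hK1 hh1 hsp1
  -- 4. the overlap
  have compat01 : ∀ r : R01, algebraMap Rh01 Fh (algebraMap R01 Rh01 r) = ι (algebraMap R01 F r) := by
    intro r
    rw [hιR01, ← IsScalarTower.algebraMap_apply R01 Rh01 Fh]
  have sat01 := sat_of_injective (φ := algebraMap R01 Rh01) (ι := ι) (π := π01) compat01 hπ01
    hinjh01 hsat01
  have hmemh0 : ∀ x ∈ I0, ι x ∈ frame0 Mh εh := fun x hx => by
    rw [← hI0h]; exact map_mem_push hx
  have hmemh1 : ∀ x ∈ I1, ι x ∈ frame1 Mh εh := fun x hx => by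
    rw [← hI1h]; exact map_mem_push hx
  have hmemJh0 : ∀ x ∈ J0, ι x ∈ Jh0 := fun x hx => by
    rw [← hJ0h]; exact map_mem_push hx
  have hmemJh1 : ∀ x ∈ J1, ι x ∈ Jh1 := fun x hx => by
    rw [← hJ1h]; exact map_mem_push hx
  have hov1 : Submodule.span R01 (I0 : Set F) * Submodule.span R01 (J1 : Set F) ≤ 1 :=
    mul_le_one (Ra := R0) (Rb := R1) (Rc := R01) (Sa := S0) (Sb := S1) (Sc := S01)
      (Rha := Rh0) (Rhb := Rh1) (Rhc := Rh01) ι π01 sat01 hS01 hI0le hJ1le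
      (span_frame0_eq_span_frame1 ML εL) hK1 hmemh0 hmemJh1
      (span_frame0_eq_span_frame1 Mh εh) hh1
  have hov2 : Submodule.span R01 (I1 : Set F) * Submodule.span R01 (J0 : Set F) ≤ 1 :=
    mul_le_one (Ra := R1) (Rb := R0) (Rc := R01) (Sa := S1) (Sb := S0) (Sc := S01)
      (Rha := Rh1) (Rhb := Rh0) (Rhc := Rh01) ι π01 sat01 hS01 hI1le hJ0le
      (span_frame0_eq_span_frame1 ML εL).symm hK0 hmemh1 hmemJh0
      (span_frame0_eq_span_frame1 Mh εh).symm hh0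
  have hov : Submodule.span R01 (I0 : Set F) = Submodule.span R01 (I1 : Set F) :=
    span_eq_of_mul_le_one hIJ0 hIJ1 hov1 hov2
  -- 5. the line with frames `I0`, `I1`
  have hM : (ofFrames cR I0 I1 hov).IsLine :=
    isLine_ofFrames cR I0 I1 hov hinjR0 hinjR1 hIJ0 hIJ1
  refine ⟨ofFrames cR I0 I1 hov, hM, ?_, ?_⟩
  · -- generic fibre
    have dS := liftData_bcCube (A' := AS) hcRS0 hcRS1 (ofFrames cR I0 I1 hov)
    rw [LinePic.bc_mk hcRS0 hcRS1 cR cS hM dS, LinePic.mk_eq_mk_iff]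
    have e0 : frame0 (bcCube AS hcRS0 hcRS1 (ofFrames cR I0 I1 hov))
        (extendFraming dS (incl cR I0 I1 hov)) = frame0 ML εL := by
      rw [frame0_extendFraming, frame0_ofFrames, hI0S]
    have e1 : frame1 (bcCube AS hcRS0 hcRS1 (ofFrames cR I0 I1 hov))
        (extendFraming dS (incl cR I0 I1 hov)) = frame1 ML εL := by
      rw [frame1_extendFraming, frame1_ofFrames, hI1S]
    exact nonempty_iso_of_frame_eq cS (LiftData.isLine dS hM) hML
      (extendFraming dS (incl cR I0 I1 hov)) εL hinjS0 hinjS1 (J0 := JK0) (J1 := JK1)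
      (by rw [e0]; exact hK0) (by rw [e1]; exact hK1) e0 e1
  · -- completed fibre
    have dh := liftData_bcCube (A' := ARh) hcRRh0 hcRRh1 (ofFrames cR I0 I1 hov)
    rw [LinePic.bc_mk hcRRh0 hcRRh1 cR cRh hM dh, LinePic.mk_eq_mk_iff]
    have e0 : frame0 (bcCube ARh hcRRh0 hcRRh1 (ofFrames cR I0 I1 hov))
        (extendFraming dh (mapFraming ι hιR01 (incl cR I0 I1 hov))) = frame0 Mh εh := by
      rw [frame0_extendFraming, coe_frame0_mapFraming, frame0_ofFrames]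
      exact hI0h
    have e1 : frame1 (bcCube ARh hcRRh0 hcRRh1 (ofFrames cR I0 I1 hov))
        (extendFraming dh (mapFraming ι hιR01 (incl cR I0 I1 hov))) = frame1 Mh εh := by
      rw [frame1_extendFraming, coe_frame1_mapFraming, frame1_ofFrames]
      exact hI1h
    exact nonempty_iso_of_frame_eq cRh (LiftData.isLine dh hM) hMh
      (extendFraming dh (mapFraming ι hιR01 (incl cR I0 I1 hov))) εh hinjh0 hinjh1
      (J0 := Jh0) (J1 := Jh1) (by rw [e0]; exact hh0) (by rw [e1]; exact hh1) e0 e1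

end Aux

end Fermat.Agent.T1B.AD74.Glue
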