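/-
Programme T1B (row 38 via S44), cell AD (ALG-DESCENT), helper74: THE GLUING THEOREM WITH MINIMAL
STRUCTURE.  Same statement as `AD74/Glue.exists_glue_aux`, but the only algebra structures on the
fields are `S_j → F` and `T_j → F̂` (`j = 0, 1, 01`, with the two towers each); all the others
(`R_j → F`, `R̂_j → F̂`, `S_j → F̂`, `R_j → F̂`, the base rings) are the composites, built inside the
proof.
-/
import Mathlib
import Fermat.Agent.T1B.AD74.Glue

set_option autoImplicit false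
set_option linter.unusedSectionVars false
set_option linter.unusedVariables false
set_option linter.style.haveILetI false

universe u

open TensorProduct

namespace Fermat.Agent.T1B.AD74.GlueMin

open Fermat.Agent.Jac Fermat.Agent.Jac.JGroup85Pic Fermat.Agent.T1B.AD74.Glue

variable {AR R0 R1 R01 AS S0 S1 S01 ARh Rh0 Rh1 Rh01 AT T0 T1 T01 : Type u}
  [CommRing AR] [CommRing R0] [CommRing R1] [CommRing R01]
  [Algebra AR R0] [Algebra AR R1] [Algebra AR R01] [Algebra R0 R01] [Algebra R1 R01]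
  [IsScalarTower AR R0 R01] [IsScalarTower AR R1 R01]
  [CommRing AS] [CommRing S0] [CommRing S1] [CommRing S01]
  [Algebra AS S0] [Algebra AS S1] [Algebra AS S01] [Algebra S0 S01] [Algebra S1 S01]
  [IsScalarTower AS S0 S01] [IsScalarTower AS S1 S01]
  [CommRing ARh] [CommRing Rh0] [CommRing Rh1] [CommRing Rh01]
  [Algebra ARh Rh0] [Algebra ARh Rh1] [Algebra ARh Rh01] [Algebra Rh0 Rh01] [Algebra Rh1 Rh01]
  [IsScalarTower ARh Rh0 Rh01] [IsScalarTower ARh Rh1 Rh01]
  [CommRing AT] [CommRing T0] [CommRing T1] [CommRing T01]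
  [Algebra AT T0] [Algebra AT T1] [Algebra AT T01] [Algebra T0 T01] [Algebra T1 T01]
  [IsScalarTower AT T0 T01] [IsScalarTower AT T1 T01]
  [Algebra R0 S0] [Algebra R1 S1] [Algebra R01 S01]
  [Algebra R0 Rh0] [Algebra R1 Rh1] [Algebra R01 Rh01]
  [Algebra S0 T0] [Algebra S1 T1] [Algebra S01 T01]
  [Algebra Rh0 T0] [Algebra Rh1 T1] [Algebra Rh01 T01]
  {F Fh : Type u} [Field F] [Field Fh]
  [Algebra S0 F] [Algebra S1 F] [Algebra S01 F] [IsScalarTower S0 S01 F] [IsScalarTower S1 S01 F]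
  [Algebra T0 Fh] [Algebra T1 Fh] [Algebra T01 Fh] [IsScalarTower T0 T01 Fh]
  [IsScalarTower T1 T01 Fh]

/-- A tower `X → Y → Z` from a commutative square `X → X' → Z = X → Y → Z`. -/
theorem tower_of_square {X X' Y Z : Type*} [CommSemiring X] [CommSemiring X'] [CommSemiring Y]
    [CommSemiring Z] [Algebra X X'] [Algebra X Y] [Algebra X' Z] [Algebra Y Z] [Algebra X Z]
    (hXZ : ∀ x : X, algebraMap X Z x = algebraMap X' Z (algebraMap X X' x))
    (hsq : ∀ x : X, algebraMap X' Z (algebraMap X X' x) = algebraMap Y Z (algebraMap X Y x)) :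
    IsScalarTower X Y Z :=
  IsScalarTower.of_algebraMap_eq fun x => by rw [hXZ, hsq]

/-- **The gluing theorem** (minimal structure on the fields). -/
theorem exists_glue
    (hcRS0 : (algebraMap S0 S01).comp (algebraMap R0 S0) =
      (algebraMap R01 S01).comp (algebraMap R0 R01))
    (hcRS1 : (algebraMap S1 S01).comp (algebraMap R1 S1) =
      (algebraMap R01 S01).comp (algebraMap R1 R01))
    (hcRRh0 : (algebraMap Rh0 Rh01).comp (algebraMap R0 Rh0) =
      (algebraMap R01 Rh01).comp (algebraMap R0 R01))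
    (hcRRh1 : (algebraMap Rh1 Rh01).comp (algebraMap R1 Rh1) =
      (algebraMap R01 Rh01).comp (algebraMap R1 R01))
    (hcST0 : (algebraMap T0 T01).comp (algebraMap S0 T0) =
      (algebraMap S01 T01).comp (algebraMap S0 S01))
    (hcST1 : (algebraMap T1 T01).comp (algebraMap S1 T1) =
      (algebraMap S01 T01).comp (algebraMap S1 S01))
    (hcRhT0 : (algebraMap T0 T01).comp (algebraMap Rh0 T0) =
      (algebraMap Rh01 T01).comp (algebraMap Rh0 Rh01))
    (hcRhT1 : (algebraMap T1 T01).comp (algebraMap Rh1 T1) =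
      (algebraMap Rh01 T01).comp (algebraMap Rh1 Rh01))
    (cR : TwoChart AR R0 R1 R01) (cS : TwoChart AS S0 S1 S01)
    (cRh : TwoChart ARh Rh0 Rh1 Rh01) (cT : TwoChart AT T0 T1 T01)
    (ι : F →+* Fh)
    (hιS0 : ∀ s : S0, ι (algebraMap S0 F s) = algebraMap T0 Fh (algebraMap S0 T0 s))
    (hιS1 : ∀ s : S1, ι (algebraMap S1 F s) = algebraMap T1 Fh (algebraMap S1 T1 s))
    (hιS01 : ∀ s : S01, ι (algebraMap S01 F s) = algebraMap T01 Fh (algebraMap S01 T01 s))
    (hsq0 : ∀ r : R0, algebraMap S0 T0 (algebraMap R0 S0 r) = algebraMap Rh0 T0 (algebraMap R0 Rh0 r))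
    (hsq1 : ∀ r : R1, algebraMap S1 T1 (algebraMap R1 S1 r) = algebraMap Rh1 T1 (algebraMap R1 Rh1 r))
    (hsq01 : ∀ r : R01,
      algebraMap S01 T01 (algebraMap R01 S01 r) = algebraMap Rh01 T01 (algebraMap R01 Rh01 r))
    (π0 : R0) (π1 : R1) (π01 : R01)
    (hu0 : IsUnit (algebraMap R0 S0 π0)) (hu1 : IsUnit (algebraMap R1 S1 π1))
    (hu01 : IsUnit (algebraMap R01 S01 π01))
    (hS0 : ∀ s : S0, ∃ (n : ℕ) (r : R0), algebraMap R0 S0 π0 ^ n * s = algebraMap R0 S0 r)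
    (hS1 : ∀ s : S1, ∃ (n : ℕ) (r : R1), algebraMap R1 S1 π1 ^ n * s = algebraMap R1 S1 r)
    (hS01 : ∀ s : S01, ∃ (n : ℕ) (r : R01),
      algebraMap R01 S01 π01 ^ n * s = algebraMap R01 S01 r)
    (hT0 : ∀ t : T0, ∃ (n : ℕ) (r : Rh0),
      algebraMap Rh0 T0 (algebraMap R0 Rh0 π0) ^ n * t = algebraMap Rh0 T0 r)
    (hT1 : ∀ t : T1, ∃ (n : ℕ) (r : Rh1),
      algebraMap Rh1 T1 (algebraMap R1 Rh1 π1) ^ n * t = algebraMap Rh1 T1 r)
    (happ0 : ∀ (n : ℕ) (x : Rh0), ∃ (r : R0) (s : Rh0),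
      x = algebraMap R0 Rh0 r + algebraMap R0 Rh0 π0 ^ n * s)
    (happ1 : ∀ (n : ℕ) (x : Rh1), ∃ (r : R1) (s : Rh1),
      x = algebraMap R1 Rh1 r + algebraMap R1 Rh1 π1 ^ n * s)
    (hsat0 : ∀ (n : ℕ) (r : R0), algebraMap R0 Rh0 r ∈ Ideal.span {algebraMap R0 Rh0 π0 ^ n} →
      r ∈ Ideal.span {π0 ^ n})
    (hsat1 : ∀ (n : ℕ) (r : R1), algebraMap R1 Rh1 r ∈ Ideal.span {algebraMap R1 Rh1 π1 ^ n} →
      r ∈ Ideal.span {π1 ^ n})
    (hsat01 : ∀ (n : ℕ) (r : R01),
      algebraMap R01 Rh01 r ∈ Ideal.span {algebraMap R01 Rh01 π01 ^ n} → r ∈ Ideal.span {π01 ^ n})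
    (hinjS0 : Function.Injective (algebraMap S0 F)) (hinjS1 : Function.Injective (algebraMap S1 F))
    (hinjR0 : Function.Injective ((algebraMap S0 F).comp (algebraMap R0 S0)))
    (hinjR1 : Function.Injective ((algebraMap S1 F).comp (algebraMap R1 S1)))
    (hinjh0 : Function.Injective ((algebraMap T0 Fh).comp (algebraMap Rh0 T0)))
    (hinjh1 : Function.Injective ((algebraMap T1 Fh).comp (algebraMap Rh1 T1)))
    (hinjh01 : Function.Injective ((algebraMap T01 Fh).comp (algebraMap Rh01 T01)))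
    {ML : QC2 AS S0 S1 S01} (hML : ML.IsLine) {Mh : QC2 ARh Rh0 Rh1 Rh01} (hMh : Mh.IsLine)
    (h : LinePic.bc hcRhT0 hcRhT1 cRh cT (LinePic.mk cRh Mh hMh) =
      LinePic.bc hcST0 hcST1 cS cT (LinePic.mk cS ML hML)) :
    ∃ (M : QC2 AR R0 R1 R01) (hM : M.IsLine),
      LinePic.bc hcRS0 hcRS1 cR cS (LinePic.mk cR M hM) = LinePic.mk cS ML hML ∧
      LinePic.bc hcRRh0 hcRRh1 cR cRh (LinePic.mk cR M hM) = LinePic.mk cRh Mh hMh := by
  have e_RS0 : ∀ x : R0, algebraMap S0 S01 (algebraMap R0 S0 x) =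
      algebraMap R01 S01 (algebraMap R0 R01 x) := fun x => RingHom.congr_fun hcRS0 x
  have e_RS1 : ∀ x : R1, algebraMap S1 S01 (algebraMap R1 S1 x) =
      algebraMap R01 S01 (algebraMap R1 R01 x) := fun x => RingHom.congr_fun hcRS1 x
  have e_RRh0 : ∀ x : R0, algebraMap Rh0 Rh01 (algebraMap R0 Rh0 x) =
      algebraMap R01 Rh01 (algebraMap R0 R01 x) := fun x => RingHom.congr_fun hcRRh0 x
  have e_RRh1 : ∀ x : R1, algebraMap Rh1 Rh01 (algebraMap R1 Rh1 x) =
      algebraMap R01 Rh01 (algebraMap R1 R01 x) := fun x => RingHom.congr_fun hcRRh1 x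
  have e_ST0 : ∀ x : S0, algebraMap T0 T01 (algebraMap S0 T0 x) =
      algebraMap S01 T01 (algebraMap S0 S01 x) := fun x => RingHom.congr_fun hcST0 x
  have e_ST1 : ∀ x : S1, algebraMap T1 T01 (algebraMap S1 T1 x) =
      algebraMap S01 T01 (algebraMap S1 S01 x) := fun x => RingHom.congr_fun hcST1 x
  have e_RhT0 : ∀ x : Rh0, algebraMap T0 T01 (algebraMap Rh0 T0 x) =
      algebraMap Rh01 T01 (algebraMap Rh0 Rh01 x) := fun x => RingHom.congr_fun hcRhT0 x
  have e_RhT1 : ∀ x : Rh1, algebraMap T1 T01 (algebraMap Rh1 T1 x) =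
      algebraMap Rh01 T01 (algebraMap Rh1 Rh01 x) := fun x => RingHom.congr_fun hcRhT1 x
  -- `F` over `R`
  letI aR0F : Algebra R0 F := ((algebraMap S0 F).comp (algebraMap R0 S0)).toAlgebra
  letI aR1F : Algebra R1 F := ((algebraMap S1 F).comp (algebraMap R1 S1)).toAlgebra
  letI aR01F : Algebra R01 F := ((algebraMap S01 F).comp (algebraMap R01 S01)).toAlgebra
  haveI tR0S0F : IsScalarTower R0 S0 F := IsScalarTower.of_algebraMap_eq' rfl
  haveI tR1S1F : IsScalarTower R1 S1 F := IsScalarTower.of_algebraMap_eq' rfl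
  haveI tR01S01F : IsScalarTower R01 S01 F := IsScalarTower.of_algebraMap_eq' rfl
  haveI tR0R01F : IsScalarTower R0 R01 F := IsScalarTower.of_algebraMap_eq fun x => by
    show algebraMap S0 F (algebraMap R0 S0 x) = algebraMap S01 F (algebraMap R01 S01 (algebraMap R0 R01 x))
    rw [← e_RS0, ← IsScalarTower.algebraMap_apply S0 S01 F]
  haveI tR1R01F : IsScalarTower R1 R01 F := IsScalarTower.of_algebraMap_eq fun x => by
    show algebraMap S1 F (algebraMap R1 S1 x) = algebraMap S01 F (algebraMap R01 S01 (algebraMap R1 R01 x))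
    rw [← e_RS1, ← IsScalarTower.algebraMap_apply S1 S01 F]
  -- `F` over the base rings
  letI aASF : Algebra AS F := ((algebraMap S01 F).comp (algebraMap AS S01)).toAlgebra
  haveI tASS01F : IsScalarTower AS S01 F := IsScalarTower.of_algebraMap_eq' rfl
  haveI tASS0F : IsScalarTower AS S0 F := IsScalarTower.of_algebraMap_eq fun x => by
    show algebraMap S01 F (algebraMap AS S01 x) = algebraMap S0 F (algebraMap AS S0 x)
    rw [IsScalarTower.algebraMap_apply AS S0 S01, ← IsScalarTower.algebraMap_apply S0 S01 F]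
  haveI tASS1F : IsScalarTower AS S1 F := IsScalarTower.of_algebraMap_eq fun x => by
    show algebraMap S01 F (algebraMap AS S01 x) = algebraMap S1 F (algebraMap AS S1 x)
    rw [IsScalarTower.algebraMap_apply AS S1 S01, ← IsScalarTower.algebraMap_apply S1 S01 F]
  letI aARF : Algebra AR F := ((algebraMap R01 F).comp (algebraMap AR R01)).toAlgebra
  haveI tARR01F : IsScalarTower AR R01 F := IsScalarTower.of_algebraMap_eq' rfl
  haveI tARR0F : IsScalarTower AR R0 F := IsScalarTower.of_algebraMap_eq fun x => by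
    show algebraMap R01 F (algebraMap AR R01 x) = algebraMap R0 F (algebraMap AR R0 x)
    rw [IsScalarTower.algebraMap_apply AR R0 R01, ← IsScalarTower.algebraMap_apply R0 R01 F]
  haveI tARR1F : IsScalarTower AR R1 F := IsScalarTower.of_algebraMap_eq fun x => by
    show algebraMap R01 F (algebraMap AR R01 x) = algebraMap R1 F (algebraMap AR R1 x)
    rw [IsScalarTower.algebraMap_apply AR R1 R01, ← IsScalarTower.algebraMap_apply R1 R01 F]
  -- `F̂` over `S`
  letI aS0Fh : Algebra S0 Fh := ((algebraMap T0 Fh).comp (algebraMap S0 T0)).toAlgebra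
  letI aS1Fh : Algebra S1 Fh := ((algebraMap T1 Fh).comp (algebraMap S1 T1)).toAlgebra
  letI aS01Fh : Algebra S01 Fh := ((algebraMap T01 Fh).comp (algebraMap S01 T01)).toAlgebra
  haveI tS0T0Fh : IsScalarTower S0 T0 Fh := IsScalarTower.of_algebraMap_eq' rfl
  haveI tS1T1Fh : IsScalarTower S1 T1 Fh := IsScalarTower.of_algebraMap_eq' rfl
  haveI tS01T01Fh : IsScalarTower S01 T01 Fh := IsScalarTower.of_algebraMap_eq' rfl
  haveI tS0S01Fh : IsScalarTower S0 S01 Fh := IsScalarTower.of_algebraMap_eq fun x => by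
    show algebraMap T0 Fh (algebraMap S0 T0 x) = algebraMap T01 Fh (algebraMap S01 T01 (algebraMap S0 S01 x))
    rw [← e_ST0, ← IsScalarTower.algebraMap_apply T0 T01 Fh]
  haveI tS1S01Fh : IsScalarTower S1 S01 Fh := IsScalarTower.of_algebraMap_eq fun x => by
    show algebraMap T1 Fh (algebraMap S1 T1 x) = algebraMap T01 Fh (algebraMap S01 T01 (algebraMap S1 S01 x))
    rw [← e_ST1, ← IsScalarTower.algebraMap_apply T1 T01 Fh]
  -- `F̂` over `R̂`
  letI aRh0Fh : Algebra Rh0 Fh := ((algebraMap T0 Fh).comp (algebraMap Rh0 T0)).toAlgebra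
  letI aRh1Fh : Algebra Rh1 Fh := ((algebraMap T1 Fh).comp (algebraMap Rh1 T1)).toAlgebra
  letI aRh01Fh : Algebra Rh01 Fh := ((algebraMap T01 Fh).comp (algebraMap Rh01 T01)).toAlgebra
  haveI tRh0T0Fh : IsScalarTower Rh0 T0 Fh := IsScalarTower.of_algebraMap_eq' rfl
  haveI tRh1T1Fh : IsScalarTower Rh1 T1 Fh := IsScalarTower.of_algebraMap_eq' rfl
  haveI tRh01T01Fh : IsScalarTower Rh01 T01 Fh := IsScalarTower.of_algebraMap_eq' rfl
  haveI tRh0Rh01Fh : IsScalarTower Rh0 Rh01 Fh := IsScalarTower.of_algebraMap_eq fun x => by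
    show algebraMap T0 Fh (algebraMap Rh0 T0 x) = algebraMap T01 Fh (algebraMap Rh01 T01 (algebraMap Rh0 Rh01 x))
    rw [← e_RhT0, ← IsScalarTower.algebraMap_apply T0 T01 Fh]
  haveI tRh1Rh01Fh : IsScalarTower Rh1 Rh01 Fh := IsScalarTower.of_algebraMap_eq fun x => by
    show algebraMap T1 Fh (algebraMap Rh1 T1 x) = algebraMap T01 Fh (algebraMap Rh01 T01 (algebraMap Rh1 Rh01 x))
    rw [← e_RhT1, ← IsScalarTower.algebraMap_apply T1 T01 Fh]
  letI aARhFh : Algebra ARh Fh := ((algebraMap Rh01 Fh).comp (algebraMap ARh Rh01)).toAlgebra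
  haveI tARhRh01Fh : IsScalarTower ARh Rh01 Fh := IsScalarTower.of_algebraMap_eq' rfl
  haveI tARhRh0Fh : IsScalarTower ARh Rh0 Fh := IsScalarTower.of_algebraMap_eq fun x => by
    show algebraMap Rh01 Fh (algebraMap ARh Rh01 x) = algebraMap Rh0 Fh (algebraMap ARh Rh0 x)
    rw [IsScalarTower.algebraMap_apply ARh Rh0 Rh01, ← IsScalarTower.algebraMap_apply Rh0 Rh01 Fh]
  haveI tARhRh1Fh : IsScalarTower ARh Rh1 Fh := IsScalarTower.of_algebraMap_eq fun x => by
    show algebraMap Rh01 Fh (algebraMap ARh Rh01 x) = algebraMap Rh1 Fh (algebraMap ARh Rh1 x)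
    rw [IsScalarTower.algebraMap_apply ARh Rh1 Rh01, ← IsScalarTower.algebraMap_apply Rh1 Rh01 Fh]
  -- `F̂` over `R`
  letI aR0Fh : Algebra R0 Fh := ((algebraMap Rh0 Fh).comp (algebraMap R0 Rh0)).toAlgebra
  letI aR1Fh : Algebra R1 Fh := ((algebraMap Rh1 Fh).comp (algebraMap R1 Rh1)).toAlgebra
  letI aR01Fh : Algebra R01 Fh := ((algebraMap Rh01 Fh).comp (algebraMap R01 Rh01)).toAlgebra
  haveI tR0Rh0Fh : IsScalarTower R0 Rh0 Fh := IsScalarTower.of_algebraMap_eq' rfl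
  haveI tR1Rh1Fh : IsScalarTower R1 Rh1 Fh := IsScalarTower.of_algebraMap_eq' rfl
  haveI tR01Rh01Fh : IsScalarTower R01 Rh01 Fh := IsScalarTower.of_algebraMap_eq' rfl
  haveI tR0R01Fh : IsScalarTower R0 R01 Fh := IsScalarTower.of_algebraMap_eq fun x => by
    show algebraMap Rh0 Fh (algebraMap R0 Rh0 x) = algebraMap Rh01 Fh (algebraMap R01 Rh01 (algebraMap R0 R01 x))
    rw [← e_RRh0, ← IsScalarTower.algebraMap_apply Rh0 Rh01 Fh]
  haveI tR1R01Fh : IsScalarTower R1 R01 Fh := IsScalarTower.of_algebraMap_eq fun x => by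
    show algebraMap Rh1 Fh (algebraMap R1 Rh1 x) = algebraMap Rh01 Fh (algebraMap R01 Rh01 (algebraMap R1 R01 x))
    rw [← e_RRh1, ← IsScalarTower.algebraMap_apply Rh1 Rh01 Fh]
  -- compatibilities of `ι`
  have hιR01 : ∀ r : R01, ι (algebraMap R01 F r) = algebraMap R01 Fh r := by
    intro r
    show ι (algebraMap S01 F (algebraMap R01 S01 r)) =
      algebraMap T01 Fh (algebraMap Rh01 T01 (algebraMap R01 Rh01 r))
    rw [hιS01, hsq01]
  have hπ01 : algebraMap R01 F π01 ≠ 0 := by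
    have h1 : IsUnit (algebraMap S01 F (algebraMap R01 S01 π01)) := hu01.map _
    exact h1.ne_zero
  exact exists_glue_aux hcRS0 hcRS1 hcRRh0 hcRRh1 hcST0 hcST1 hcRhT0 hcRhT1 cR cS cRh cT ι
    hιS0 hιS1 hιS01 hιR01 hsq0 hsq1 π0 π1 π01 hu0 hu1 hS0 hS1 hS01 hT0 hT1 happ0 happ1
    hsat0 hsat1 hsat01 hπ01 hinjS0 hinjS1 hinjR0 hinjR1 hinjh0 hinjh1 hinjh01 hML hMh h

end Fermat.Agent.T1B.AD74.GlueMin
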