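/-
Programme T1B (row 38 via S44), cell AD (ALG-DESCENT), helper74: **THE GLUING THEOREM IN THE HUB
VOCABULARY** `PicX c0`, `PicX.map c0`.

`W`-algebras `O` (algebraic DVR `A ∩ L`), `L` (number field), `Ô` (complete DVR `O_{E_L}`),
`E` (`p`-adic field) in a commutative square `O → L → E`, `O → Ô → E`; `π : O` with `L = O[1/π]`,
`E = Ô[1/π]`, `Ô = O + πⁿ Ô`, `πⁿ Ô ∩ O = πⁿ O`; the chart rings `B_j` flat over `W`; fields `F` over
`L ⊗[W] B_j` and `F̂` over `E ⊗[W] B_j` (`j = 0, 1, 01`, with the two towers each) and a ring map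
`ι : F → F̂` compatible with `L ⊗ B_j → E ⊗ B_j`; injectivity of `O ⊗ B_j → F`, `L ⊗ B_j → F` (`j = 0, 1`),
`Ô ⊗ B_j → F̂` (`j = 0, 1, 01`).

**`exists_glue_hub`** : `∀ (ŷ : PicX c0 Ô) (z : PicX c0 L), PicX.map c0 Ô E ŷ = PicX.map c0 L E z →
  ∃ y : PicX c0 O, PicX.map c0 O L y = z ∧ PicX.map c0 O Ô y = ŷ`,
i.e. `Pic X_O ↠ Pic X_L ×_{Pic X_E} Pic X_Ô`.
-/
import Mathlib
import Fermat.Agent.T1B.AD74.GlueMin
import Fermat.Agent.T1B.AD21.Tensor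
import Fermat.Agent.T1.RedIface75
import Fermat.Agent.Jac.BaseChange75.Trans

set_option autoImplicit false
set_option linter.unusedSectionVars false
set_option linter.unusedVariables false

universe u

open TensorProduct

namespace Fermat.Agent.T1B.AD74.GlueHub

open Fermat.Agent.Jac Fermat.Agent.Jac.JGroup85Pic Fermat.Agent.Jac.BaseChange75
open Fermat.Agent.T1.RedIface75 Fermat.Agent.T1B.AD74.GlueMin Fermat.Agent.T1B.AD21.Tensor
open scoped Fermat.Agent.Jac.BaseChange75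

/-! ### Tensor-level forms of the hypotheses -/

section Tensor

variable {W : Type u} [CommRing W] (O O' B : Type u) [CommRing O] [CommRing O'] [CommRing B]
  [Algebra W O] [Algebra W O'] [Algebra W B] [Algebra O O'] [IsScalarTower W O O']

/-- The `BaseChange75` structure map is helper21's `tmap`. -/
theorem tmap_eq_algebraMap (r : O ⊗[W] B) :
    tmap B (IsScalarTower.toAlgHom W O O') r = algebraMap (O ⊗[W] B) (O' ⊗[W] B) r := by
  induction r using TensorProduct.induction_on with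
  | zero => rw [map_zero, map_zero]
  | tmul a b => rw [tmap_tmul, algebraMap_left_tmul]; rfl
  | add x y hx hy => rw [map_add, map_add, hx, hy]

variable {O O'} in
/-- `O' ⊗ B = (O ⊗ B)[1/π]` from `O' = O[1/π]`. -/
theorem exists_pow_mul_tensor (ϖ : O)
    (h : ∀ x : O', ∃ (n : ℕ) (r : O), algebraMap O O' ϖ ^ n * x = algebraMap O O' r)
    (t : O' ⊗[W] B) :
    ∃ (n : ℕ) (r : O ⊗[W] B),
      algebraMap (O ⊗[W] B) (O' ⊗[W] B) (ϖ ⊗ₜ[W] (1 : B)) ^ n * t =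
        algebraMap (O ⊗[W] B) (O' ⊗[W] B) r := by
  have hmul : ∀ (k : ℕ) (r : O ⊗[W] B) (t : O' ⊗[W] B) (n : ℕ),
      algebraMap (O ⊗[W] B) (O' ⊗[W] B) (ϖ ⊗ₜ[W] (1 : B)) ^ n * t =
        algebraMap (O ⊗[W] B) (O' ⊗[W] B) r →
      algebraMap (O ⊗[W] B) (O' ⊗[W] B) (ϖ ⊗ₜ[W] (1 : B)) ^ (k + n) * t =
        algebraMap (O ⊗[W] B) (O' ⊗[W] B) ((ϖ ⊗ₜ[W] (1 : B)) ^ k * r) := by
    intro k r t n hn
    rw [pow_add, mul_assoc, hn, map_mul, map_pow]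
  induction t using TensorProduct.induction_on with
  | zero => exact ⟨0, 0, by rw [mul_zero, map_zero]⟩
  | tmul x b =>
    obtain ⟨n, r, hnr⟩ := h x
    refine ⟨n, r ⊗ₜ[W] b, ?_⟩
    rw [algebraMap_left_tmul, algebraMap_left_tmul, Algebra.TensorProduct.tmul_pow, one_pow,
      Algebra.TensorProduct.tmul_mul_tmul, one_mul, hnr]
  | add x y hx hy =>
    obtain ⟨n, r, hnr⟩ := hx
    obtain ⟨m, s, hms⟩ := hy
    refine ⟨m + n, (ϖ ⊗ₜ[W] (1 : B)) ^ m * r + (ϖ ⊗ₜ[W] (1 : B)) ^ n * s, ?_⟩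
    rw [mul_add, map_add, hmul m r x n hnr]
    congr 1
    rw [add_comm m n]
    exact hmul n s y m hms

variable {O O'} in
/-- A unit `π` of `O'` gives the unit `π ⊗ 1` of `O' ⊗ B`. -/
theorem isUnit_tensor (ϖ : O) (h : IsUnit (algebraMap O O' ϖ)) :
    IsUnit (algebraMap (O ⊗[W] B) (O' ⊗[W] B) (ϖ ⊗ₜ[W] (1 : B))) := by
  rw [algebraMap_left_tmul]
  obtain ⟨u, hu⟩ := h
  refine ⟨⟨(u : O') ⊗ₜ[W] (1 : B), ((u⁻¹ : O'ˣ) : O') ⊗ₜ[W] (1 : B), ?_, ?_⟩, ?_⟩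
  · rw [Algebra.TensorProduct.tmul_mul_tmul, Units.mul_inv, one_mul]; rfl
  · rw [Algebra.TensorProduct.tmul_mul_tmul, Units.inv_mul, one_mul]; rfl
  · show (u : O') ⊗ₜ[W] (1 : B) = _
    rw [hu]

end Tensor

/-! ### The hub form -/

section Hub

variable {W B0 B1 B01 : Type u} [CommRing W] [CommRing B0] [CommRing B1] [CommRing B01]
  [Algebra W B0] [Algebra W B1] [Algebra W B01] [Algebra B0 B01] [Algebra B1 B01]
  [IsScalarTower W B0 B01] [IsScalarTower W B1 B01]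
  (c0 : TwoChart W B0 B1 B01)
  (O L Oh E : Type u) [CommRing O] [CommRing L] [CommRing Oh] [CommRing E]
  [Algebra W O] [Algebra W L] [Algebra W Oh] [Algebra W E]
  [Algebra O L] [IsScalarTower W O L] [Algebra O Oh] [IsScalarTower W O Oh]
  [Algebra L E] [IsScalarTower W L E] [Algebra Oh E] [IsScalarTower W Oh E]
  [Algebra O E] [IsScalarTower W O E] [IsScalarTower O L E] [IsScalarTower O Oh E]
  [Module.Flat W B0] [Module.Flat W B1] [Module.Flat W B01]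
  {F Fh : Type u} [Field F] [Field Fh]
  [Algebra (L ⊗[W] B0) F] [Algebra (L ⊗[W] B1) F] [Algebra (L ⊗[W] B01) F]
  [IsScalarTower (L ⊗[W] B0) (L ⊗[W] B01) F] [IsScalarTower (L ⊗[W] B1) (L ⊗[W] B01) F]
  [Algebra (E ⊗[W] B0) Fh] [Algebra (E ⊗[W] B1) Fh] [Algebra (E ⊗[W] B01) Fh]
  [IsScalarTower (E ⊗[W] B0) (E ⊗[W] B01) Fh] [IsScalarTower (E ⊗[W] B1) (E ⊗[W] B01) Fh]

/-- **GLUE, hub form**: `Pic X_O ↠ Pic X_L ×_{Pic X_E} Pic X_Ô`. -/
theorem exists_glue_hub (ι : F →+* Fh)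
    (hι0 : ∀ s : L ⊗[W] B0, ι (algebraMap (L ⊗[W] B0) F s) =
      algebraMap (E ⊗[W] B0) Fh (algebraMap (L ⊗[W] B0) (E ⊗[W] B0) s))
    (hι1 : ∀ s : L ⊗[W] B1, ι (algebraMap (L ⊗[W] B1) F s) =
      algebraMap (E ⊗[W] B1) Fh (algebraMap (L ⊗[W] B1) (E ⊗[W] B1) s))
    (hι01 : ∀ s : L ⊗[W] B01, ι (algebraMap (L ⊗[W] B01) F s) =
      algebraMap (E ⊗[W] B01) Fh (algebraMap (L ⊗[W] B01) (E ⊗[W] B01) s))
    (π : O) (hπL : IsUnit (algebraMap O L π))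
    (hL : ∀ l : L, ∃ (n : ℕ) (r : O), algebraMap O L π ^ n * l = algebraMap O L r)
    (hE : ∀ e : E, ∃ (n : ℕ) (r : Oh),
      algebraMap Oh E (algebraMap O Oh π) ^ n * e = algebraMap Oh E r)
    (happrox : ∀ (n : ℕ) (x : Oh), ∃ (r : O) (s : Oh),
      x = algebraMap O Oh r + algebraMap O Oh π ^ n * s)
    (hsat : ∀ (n : ℕ) (r : O), algebraMap O Oh r ∈ Ideal.span {algebraMap O Oh π ^ n} →
      r ∈ Ideal.span {π ^ n})
    (hinjL0 : Function.Injective (algebraMap (L ⊗[W] B0) F))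
    (hinjL1 : Function.Injective (algebraMap (L ⊗[W] B1) F))
    (hinjO0 : Function.Injective
      ((algebraMap (L ⊗[W] B0) F).comp (algebraMap (O ⊗[W] B0) (L ⊗[W] B0))))
    (hinjO1 : Function.Injective
      ((algebraMap (L ⊗[W] B1) F).comp (algebraMap (O ⊗[W] B1) (L ⊗[W] B1))))
    (hinjh0 : Function.Injective
      ((algebraMap (E ⊗[W] B0) Fh).comp (algebraMap (Oh ⊗[W] B0) (E ⊗[W] B0))))
    (hinjh1 : Function.Injective
      ((algebraMap (E ⊗[W] B1) Fh).comp (algebraMap (Oh ⊗[W] B1) (E ⊗[W] B1))))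
    (hinjh01 : Function.Injective
      ((algebraMap (E ⊗[W] B01) Fh).comp (algebraMap (Oh ⊗[W] B01) (E ⊗[W] B01))))
    (yh : PicX c0 Oh) (z : PicX c0 L)
    (h : PicX.map c0 Oh E yh = PicX.map c0 L E z) :
    ∃ y : PicX c0 O, PicX.map c0 O L y = z ∧ PicX.map c0 O Oh y = yh := by
  obtain ⟨Mh, hMh, rfl⟩ := LinePic.exists_rep yh
  obtain ⟨ML, hML, rfl⟩ := LinePic.exists_rep z
  -- the square `O ⊗ B → L ⊗ B → E ⊗ B = O ⊗ B → Ô ⊗ B → E ⊗ B`
  have hsq : ∀ (B : Type u) [CommRing B] [Algebra W B] (r : O ⊗[W] B),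
      algebraMap (L ⊗[W] B) (E ⊗[W] B) (algebraMap (O ⊗[W] B) (L ⊗[W] B) r) =
        algebraMap (Oh ⊗[W] B) (E ⊗[W] B) (algebraMap (O ⊗[W] B) (Oh ⊗[W] B) r) := by
    intro B _ _ r
    rw [← IsScalarTower.algebraMap_apply (O ⊗[W] B) (L ⊗[W] B) (E ⊗[W] B),
      ← IsScalarTower.algebraMap_apply (O ⊗[W] B) (Oh ⊗[W] B) (E ⊗[W] B)]
  -- `T = R̂[1/π]`
  have hT : ∀ (B : Type u) [CommRing B] [Algebra W B] (t : E ⊗[W] B),
      ∃ (n : ℕ) (r : Oh ⊗[W] B),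
        algebraMap (Oh ⊗[W] B) (E ⊗[W] B)
          (algebraMap (O ⊗[W] B) (Oh ⊗[W] B) (π ⊗ₜ[W] (1 : B))) ^ n * t =
          algebraMap (Oh ⊗[W] B) (E ⊗[W] B) r := by
    intro B _ _ t
    rw [algebraMap_left_tmul]
    exact exists_pow_mul_tensor B (algebraMap O Oh π) hE t
  -- density and saturation on the tensor rings
  have happ : ∀ (B : Type u) [CommRing B] [Algebra W B] (n : ℕ) (x : Oh ⊗[W] B),
      ∃ (r : O ⊗[W] B) (s : Oh ⊗[W] B),
        x = algebraMap (O ⊗[W] B) (Oh ⊗[W] B) r +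
          algebraMap (O ⊗[W] B) (Oh ⊗[W] B) (π ⊗ₜ[W] (1 : B)) ^ n * s := by
    intro B _ _ n x
    obtain ⟨r, s, hrs⟩ := approx_tensor (B := B) (IsScalarTower.toAlgHom W O Oh) π happrox n x
    rw [tmap_eq_algebraMap, tmap_eq_algebraMap] at hrs
    exact ⟨r, s, hrs⟩
  have hsatT : ∀ (B : Type u) [CommRing B] [Algebra W B] [Module.Flat W B] (n : ℕ)
      (r : O ⊗[W] B),
      algebraMap (O ⊗[W] B) (Oh ⊗[W] B) r ∈
        Ideal.span {algebraMap (O ⊗[W] B) (Oh ⊗[W] B) (π ⊗ₜ[W] (1 : B)) ^ n} →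
      r ∈ Ideal.span {(π ⊗ₜ[W] (1 : B)) ^ n} := by
    intro B _ _ _ n r hr
    refine sat_tensor (B := B) (IsScalarTower.toAlgHom W O Oh) π hsat n r ?_
    rw [tmap_eq_algebraMap, tmap_eq_algebraMap]
    exact hr
  obtain ⟨M, hM, h1, h2⟩ := exists_glue
    (square_comm W O L B0 B01) (square_comm W O L B1 B01)
    (square_comm W O Oh B0 B01) (square_comm W O Oh B1 B01)
    (square_comm W L E B0 B01) (square_comm W L E B1 B01)
    (square_comm W Oh E B0 B01) (square_comm W Oh E B1 B01)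
    (c0.baseChange O) (c0.baseChange L) (c0.baseChange Oh) (c0.baseChange E) ι hι0 hι1 hι01
    (hsq B0) (hsq B1) (hsq B01)
    (π ⊗ₜ[W] (1 : B0)) (π ⊗ₜ[W] (1 : B1)) (π ⊗ₜ[W] (1 : B01))
    (isUnit_tensor B0 π hπL) (isUnit_tensor B1 π hπL) (isUnit_tensor B01 π hπL)
    (exists_pow_mul_tensor B0 π hL) (exists_pow_mul_tensor B1 π hL)
    (exists_pow_mul_tensor B01 π hL) (hT B0) (hT B1) (happ B0) (happ B1)
    (hsatT B0) (hsatT B1) (hsatT B01) hinjL0 hinjL1 hinjO0 hinjO1 hinjh0 hinjh1 hinjh01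
    hML hMh h
  exact ⟨LinePic.mk (c0.baseChange O) M hM, h1, h2⟩

end Hub

end Fermat.Agent.T1B.AD74.GlueHub
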