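/-
Programme T1B (row 38 via S44), cell AD (ALG-DESCENT), helper74: THE ALGEBRAIC SUBGROUPS `J0a`, `J1a`.

Abstract form (no dictionary, no number fields): a directed family of "levels" `i : ι`, for each level
a pair of `W`-algebras `O i → L i` (in the application `O i = AK A L`, `L i = ↥L` for the number
fields `L ⊂ ℚ̄`, finite over `ℚ`, containing the field of definition `L₀` of a section of the
`p`-torsion), a map `d i : G → PicX c0 (L i)` (the dictionary `x ↦ [O(s x)]`, `G = J₀(N)(ℚ̄)[p]`)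
and a subgroup `P00 i ≤ PicX c0 (O i)` (multidegree `0`).

* `dirUnion d S hd hmono` : the subgroup `{x | ∃ i, d i x ∈ S i}` of `G` for a directed family;
* `J0a` : `{x | ∃ i, d i x ∈ RedN3.J0L c0 (O i) (L i) (P00 i)}` = the classes which, at some finite
  level, extend to a class of multidegree `0` of the ALGEBRAIC local ring `O i`;
* `J1a` : the same with `RedN3.J1L` (extension of multidegree `0` with trivial special fibre);
* `J1a_le_J0a`; `mem_J0a`, `mem_J1a`; `mem_J0a_of_le` (monotonicity in the level).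

The statement **AD-MAIN** of the cell is `∀ x, j x ∈ J0 → x ∈ J0a` (`j`, `J0` the `p`-adic bridge and
subgroup of `Local66.Assembly.LocalGeom`); the algebraic detector statements (KER, HOL) are stated
for `x ∈ J0a`.
-/
import Mathlib
import Fermat.Agent.T1B.RedN3.Shell

set_option autoImplicit false
set_option linter.unusedSectionVars false
set_option linter.dupNamespace false

universe u w

open TensorProduct

namespace Fermat.Agent.T1B.AD74.J0a

open Fermat.Agent.Jac Fermat.Agent.Jac.JGroup85Pic Fermat.Agent.Jac.BaseChange75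
open Fermat.Agent.T1.RedIface75 Fermat.Agent.T1B.RedN3
open scoped Fermat.Agent.Jac.BaseChange75

/-! ### Directed unions of pulled-back subgroups -/

section DirUnion

variable {G : Type*} [AddCommGroup G] {ι : Type*} [Preorder ι] [IsDirected ι (· ≤ ·)] [Nonempty ι]
  {H : ι → Type*} [∀ i, Group (H i)]

/-- `{x | ∃ i, d i x ∈ S i}` for a directed family of "additive-to-multiplicative" maps `d i` and
subgroups `S i`, monotone in `i`. -/
def dirUnion (d : ∀ i, G → H i) (S : ∀ i, Subgroup (H i))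
    (hd : ∀ i x y, d i (x + y) = d i x * d i y)
    (hmono : ∀ i j, i ≤ j → ∀ x, d i x ∈ S i → d j x ∈ S j) : AddSubgroup G where
  carrier := {x | ∃ i, d i x ∈ S i}
  zero_mem' := by
    obtain ⟨i⟩ := ‹Nonempty ι›
    refine ⟨i, ?_⟩
    have h : d i 0 * d i 0 = d i 0 := by rw [← hd, add_zero]
    rw [mul_eq_left.mp h]
    exact (S i).one_mem
  add_mem' := by
    rintro x y ⟨i, hi⟩ ⟨j, hj⟩
    obtain ⟨k, hik, hjk⟩ := exists_ge_ge i j
    exact ⟨k, by rw [hd]; exact (S k).mul_mem (hmono i k hik x hi) (hmono j k hjk y hj)⟩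
  neg_mem' := by
    rintro x ⟨i, hi⟩
    refine ⟨i, ?_⟩
    have h0 : d i 0 = 1 := by
      have h : d i 0 * d i 0 = d i 0 := by rw [← hd, add_zero]
      exact mul_eq_left.mp h
    have h1 : d i (-x) * d i x = 1 := by rw [← hd, neg_add_cancel, h0]
    rw [eq_inv_of_mul_eq_one_left h1]
    exact (S i).inv_mem hi

theorem mem_dirUnion {d : ∀ i, G → H i} {S : ∀ i, Subgroup (H i)}
    {hd : ∀ i x y, d i (x + y) = d i x * d i y}
    {hmono : ∀ i j, i ≤ j → ∀ x, d i x ∈ S i → d j x ∈ S j} {x : G} :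
    x ∈ dirUnion d S hd hmono ↔ ∃ i, d i x ∈ S i := Iff.rfl

theorem dirUnion_mono {d : ∀ i, G → H i} {S S' : ∀ i, Subgroup (H i)}
    {hd : ∀ i x y, d i (x + y) = d i x * d i y}
    {hmono : ∀ i j, i ≤ j → ∀ x, d i x ∈ S i → d j x ∈ S j}
    {hmono' : ∀ i j, i ≤ j → ∀ x, d i x ∈ S' i → d j x ∈ S' j} (h : ∀ i, S i ≤ S' i) :
    dirUnion d S hd hmono ≤ dirUnion d S' hd hmono' := by
  rintro x ⟨i, hi⟩
  exact ⟨i, h i hi⟩

end DirUnion

/-! ### `J0a`, `J1a` -/

section Hub

variable {W B0 B1 B01 : Type u} [CommRing W] [CommRing B0] [CommRing B1] [CommRing B01]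
  [Algebra W B0] [Algebra W B1] [Algebra W B01] [Algebra B0 B01] [Algebra B1 B01]
  [IsScalarTower W B0 B01] [IsScalarTower W B1 B01]
  (c0 : TwoChart W B0 B1 B01)
  {G : Type w} [AddCommGroup G] {ι : Type w} [Preorder ι] [IsDirected ι (· ≤ ·)] [Nonempty ι]
  (O L : ι → Type u) [∀ i, CommRing (O i)] [∀ i, IsDomain (O i)]
  [∀ i, IsDiscreteValuationRing (O i)] [∀ i, Algebra W (O i)]
  [∀ i, CommRing (L i)] [∀ i, Algebra W (L i)] [∀ i, Algebra (O i) (L i)]
  [∀ i, IsScalarTower W (O i) (L i)]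

/-- The data of the algebraic levels: the dictionary maps `d i` and the subgroups `P00 i`, with the
two monotonicity properties (in the application: `d_tower` + `RedN3.map_mem_J0L`, `map_mem_J1L` with
`hPP := Bal60.map_mem_P00`). -/
structure Levels where
  d : ∀ i, G → PicX c0 (L i)
  d_add : ∀ i x y, d i (x + y) = d i x * d i y
  P00 : ∀ i, Subgroup (PicX c0 (O i))
  mono0 : ∀ i j, i ≤ j → ∀ x, d i x ∈ J0L c0 (O i) (L i) (P00 i) →
    d j x ∈ J0L c0 (O j) (L j) (P00 j)
  mono1 : ∀ i j, i ≤ j → ∀ x, d i x ∈ J1L c0 (O i) (L i) (P00 i) →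
    d j x ∈ J1L c0 (O j) (L j) (P00 j)

variable {c0 O L}

/-- **`J0a`**: the classes of `G` which at some level extend to a class of `P00` of the algebraic
local ring. -/
noncomputable def J0a (D : Levels (G := G) c0 O L) : AddSubgroup G :=
  dirUnion D.d (fun i => J0L c0 (O i) (L i) (D.P00 i)) D.d_add D.mono0

/-- **`J1a`**: the classes of `G` which at some level extend to a class of `P00` with trivial
special fibre. -/
noncomputable def J1a (D : Levels (G := G) c0 O L) : AddSubgroup G :=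
  dirUnion D.d (fun i => J1L c0 (O i) (L i) (D.P00 i)) D.d_add D.mono1

theorem mem_J0a {D : Levels (G := G) c0 O L} {x : G} :
    x ∈ J0a D ↔ ∃ i, D.d i x ∈ J0L c0 (O i) (L i) (D.P00 i) := Iff.rfl

theorem mem_J1a {D : Levels (G := G) c0 O L} {x : G} :
    x ∈ J1a D ↔ ∃ i, D.d i x ∈ J1L c0 (O i) (L i) (D.P00 i) := Iff.rfl

/-- Explicit form: `x ∈ J0a` iff at some level `d i x` is the generic fibre of a class of `P00 i`. -/
theorem mem_J0a_iff {D : Levels (G := G) c0 O L} {x : G} :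
    x ∈ J0a D ↔ ∃ i, ∃ y ∈ D.P00 i, PicX.map c0 (O i) (L i) y = D.d i x := by
  rw [mem_J0a]
  exact exists_congr fun i => Subgroup.mem_map

theorem mem_J1a_iff {D : Levels (G := G) c0 O L} {x : G} :
    x ∈ J1a D ↔ ∃ i, ∃ y ∈ D.P00 i, red c0 (O i) y = 1 ∧
      PicX.map c0 (O i) (L i) y = D.d i x := by
  rw [mem_J1a]
  refine exists_congr fun i => ?_
  constructor
  · intro h
    obtain ⟨y, ⟨hy, hy1⟩, hyx⟩ := Subgroup.mem_map.1 h
    exact ⟨y, hy, hy1, hyx⟩
  · rintro ⟨y, hy, hy1, hyx⟩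
    exact Subgroup.mem_map.2 ⟨y, ⟨hy, hy1⟩, hyx⟩

theorem J1a_le_J0a (D : Levels (G := G) c0 O L) : J1a D ≤ J0a D :=
  dirUnion_mono fun _ => J1L_le_J0L

/-- Membership persists at every higher level. -/
theorem mem_J0L_of_le {D : Levels (G := G) c0 O L} {x : G} {i j : ι} (hij : i ≤ j)
    (h : D.d i x ∈ J0L c0 (O i) (L i) (D.P00 i)) : D.d j x ∈ J0L c0 (O j) (L j) (D.P00 j) :=
  D.mono0 i j hij x h

/-- Finitely many elements of `J0a` extend at a common level. -/
theorem exists_level_of_finite {D : Levels (G := G) c0 O L} (s : Finset G)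
    (hs : ∀ x ∈ s, x ∈ J0a D) : ∃ i, ∀ x ∈ s, D.d i x ∈ J0L c0 (O i) (L i) (D.P00 i) := by
  classical
  induction s using Finset.induction_on with
  | empty =>
    obtain ⟨i⟩ := ‹Nonempty ι›
    exact ⟨i, fun x hx => absurd hx (Finset.notMem_empty x)⟩
  | insert a s ha ih =>
    obtain ⟨i, hi⟩ := ih fun x hx => hs x (Finset.mem_insert_of_mem hx)
    obtain ⟨j, hj⟩ := mem_J0a.1 (hs a (Finset.mem_insert_self a s))
    obtain ⟨k, hik, hjk⟩ := exists_ge_ge i j
    refine ⟨k, fun x hx => ?_⟩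
    rcases Finset.mem_insert.1 hx with rfl | hx
    · exact D.mono0 j k hjk _ hj
    · exact D.mono0 i k hik x (hi x hx)

end Hub

end Fermat.Agent.T1B.AD74.J0a
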