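/-
Programme T1B (row 38 via S44), cell AD (ALG-DESCENT), helper74: `J0aInst` — THE CONCRETE ALGEBRAIC
LEVELS, in the conventions of helper93's `ADPe93.Inst` (`OFam lev i = Wb p (lev i).L`,
`LFam lev i = ↥(lev i).L`, instance families `dvrFam`, `algWOFam`, `algWLFam`, `towerFam` used with
`letI`), so that the `J0a.Levels` built here plugs into `ADPe93.Inst.completion` with no adapter.

* index type: ANY preorder `ι` with a monotone `lev : ι → NLevel p K` (`hlev`); in the application
  (`AD74/J0aInst.lean`) helper93's `ADPe93.LevelAbove p K S.L₀` with `lev := LevelAbove.lev`.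
* transitions for `E ≤ E'` : `algOaOa h`, `algLaLa h`, `algOaLa h` (use with `letI`), the towers
  `tower_W_Oa_Oa`, `tower_W_La_La`, `tower_W_Oa_La`, `tower_Oa_La_La`, `tower_Oa_Oa_La`,
  `isLocalHom_OaOa`; the maps `mapOaOa c0 h : PicOL c0 E →* PicOL c0 E'`,
  `mapLaLa c0 h : PicL c0 E →* PicL c0 E'` and the square `genL_mapOaOa`.
* `AlgData lev hlev c0 G` : the inputs at the algebraic levels — the dictionary `d` with `d_add`,
  `d_tower` (helper39's `Fam.d`), the multidegree-`0` subgroups `P00` with their functoriality `hPP`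
  (the hub `Bal60.P00` with `map_mem_P00`).
* `AlgData.levels : J0a.Levels c0 (OFam lev) (LFam lev)` (`mono0`, `mono1` from `d_tower` +
  `RedN3.map_mem_J0L`, `map_mem_J1L`), `AlgData.monoExt : ADPe93.MonoExt D.levels`.
-/
import Mathlib
import Fermat.Agent.T1B.AD74.J0a
import Fermat.Agent.T1B.ADPe93.Inst

set_option autoImplicit false
set_option linter.unusedSectionVars false
set_option linter.style.haveILetI false
set_option synthInstance.maxHeartbeats 400000
set_option maxHeartbeats 1000000

open Fermat.Agent.TW.B5.Iface Fermat.Agent.RED.Interface4 Fermat.Agent.T1.HubInst98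
open Fermat.Agent.T1.IntSub47 Fermat.Agent.Jac Fermat.Agent.T1.RedIface75 Fermat.Agent.T1.Red11
open Fermat.Agent.T1B.RedN3
open Fermat.Agent.T1B.Local66.LocalBase Fermat.Agent.T1B.Local66.Union
open Fermat.Agent.T1B.AD74.J0a Fermat.Agent.T1B.ADPe93 Fermat.Agent.T1B.ADPe93.Inst

noncomputable section

namespace Fermat.Agent.T1B.AD74.Inst

/-! ### Transitions between the algebraic levels -/

section Trans

variable {p : ℕ} [Fact p.Prime] {K : IntermediateField ℚ Qbar} {E E' : NLevel p K}

/-- `A ∩ L → A ∩ L'` (use with `letI`). -/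
abbrev algOaOa (h : E ≤ E') : Algebra (Wb p E.L) (Wb p E'.L) :=
  algAK (padicPlace p) (NLevel.le_def.1 h)

/-- `L → L'` (use with `letI`). -/
abbrev algLaLa (h : E ≤ E') : Algebra ↥E.L ↥E'.L := algKL (NLevel.le_def.1 h)

/-- `A ∩ L → L'` (use with `letI`). -/
abbrev algOaLa (h : E ≤ E') : Algebra (Wb p E.L) ↥E'.L :=
  algAKL (padicPlace p) (NLevel.le_def.1 h)

theorem tower_W_Oa_Oa (h : E ≤ E') :
    letI := algAK (padicPlace p) E.leL
    letI := algAK (padicPlace p) E'.leL
    letI := algOaOa h
    IsScalarTower (Wb p K) (Wb p E.L) (Wb p E'.L) := by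
  letI := algAK (padicPlace p) E.leL
  letI := algAK (padicPlace p) E'.leL
  letI := algOaOa h
  exact IsScalarTower.of_algebraMap_eq fun w => Subtype.ext (Subtype.ext rfl)

theorem isLocalHom_OaOa (h : E ≤ E') :
    letI := algOaOa h
    IsLocalHom (algebraMap (Wb p E.L) (Wb p E'.L)) :=
  isLocalHom_inclAK (padicPlace p) (NLevel.le_def.1 h)

theorem tower_W_La_La (h : E ≤ E') :
    letI := algAKL (padicPlace p) E.leL
    letI := algAKL (padicPlace p) E'.leL
    letI := algLaLa h
    IsScalarTower (Wb p K) ↥E.L ↥E'.L := by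
  letI := algAKL (padicPlace p) E.leL
  letI := algAKL (padicPlace p) E'.leL
  letI := algLaLa h
  exact IsScalarTower.of_algebraMap_eq fun w => Subtype.ext rfl

theorem tower_W_Oa_La (h : E ≤ E') :
    letI := algAK (padicPlace p) E.leL
    letI := algAKL (padicPlace p) E'.leL
    letI := algOaLa h
    IsScalarTower (Wb p K) (Wb p E.L) ↥E'.L := by
  letI := algAK (padicPlace p) E.leL
  letI := algAKL (padicPlace p) E'.leL
  letI := algOaLa h
  exact IsScalarTower.of_algebraMap_eq fun w => Subtype.ext rfl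

theorem tower_Oa_La_La (h : E ≤ E') :
    letI := algLaLa h
    letI := algOaLa h
    IsScalarTower (Wb p E.L) ↥E.L ↥E'.L := by
  letI := algLaLa h
  letI := algOaLa h
  exact IsScalarTower.of_algebraMap_eq fun w => Subtype.ext rfl

theorem tower_Oa_Oa_La (h : E ≤ E') :
    letI := algOaOa h
    letI := algOaLa h
    IsScalarTower (Wb p E.L) (Wb p E'.L) ↥E'.L := by
  letI := algOaOa h
  letI := algOaLa h
  exact IsScalarTower.of_algebraMap_eq fun w => Subtype.ext rfl

end Trans

/-! ### The transition maps on Picard groups -/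

section Maps

variable {p : ℕ} [Fact p.Prime] {K : IntermediateField ℚ Qbar}
  {B0 B1 B01 : Type} [CommRing B0] [CommRing B1] [CommRing B01]
  [Algebra (Wb p K) B0] [Algebra (Wb p K) B1] [Algebra (Wb p K) B01] [Algebra B0 B01]
  [Algebra B1 B01] [IsScalarTower (Wb p K) B0 B01] [IsScalarTower (Wb p K) B1 B01]
  (c0 : TwoChart (Wb p K) B0 B1 B01) {E E' : NLevel p K}

/-- `Pic X_{A ∩ L} → Pic X_{A ∩ L'}`. -/
def mapOaOa (h : E ≤ E') : PicOL c0 E →* PicOL c0 E' :=
  letI := algAK (padicPlace p) E.leL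
  letI := algAK (padicPlace p) E'.leL
  letI := algOaOa h
  haveI := tower_W_Oa_Oa h
  PicX.map c0 (Wb p E.L) (Wb p E'.L)

/-- `Pic X_L → Pic X_L'`. -/
def mapLaLa (h : E ≤ E') : PicL c0 E →* PicL c0 E' :=
  letI := algAKL (padicPlace p) E.leL
  letI := algAKL (padicPlace p) E'.leL
  letI := algLaLa h
  haveI := tower_W_La_La h
  PicX.map c0 ↥E.L ↥E'.L

/-- The square `A ∩ L → L → L'`, `A ∩ L → A ∩ L' → L'` commutes on Picard groups. -/
theorem genL_mapOaOa (h : E ≤ E') (y : PicOL c0 E) :
    genL c0 E' (mapOaOa c0 h y) = mapLaLa c0 h (genL c0 E y) := by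
  letI := algAK (padicPlace p) E.leL
  letI := algAK (padicPlace p) E'.leL
  letI := algAKL (padicPlace p) E.leL
  letI := algAKL (padicPlace p) E'.leL
  letI := algOaOa h
  letI := algLaLa h
  letI := algOaLa h
  haveI := isScalarTower_AK (padicPlace p) E.leL
  haveI := isScalarTower_AK (padicPlace p) E'.leL
  haveI := tower_W_Oa_Oa h
  haveI := tower_W_La_La h
  haveI := tower_W_Oa_La h
  haveI := tower_Oa_La_La h
  haveI := tower_Oa_Oa_La h
  have h1 : genL c0 E' (mapOaOa c0 h y) = PicX.map c0 (Wb p E.L) ↥E'.L y :=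
    PicX.map_comp c0 (Wb p E.L) (Wb p E'.L) ↥E'.L y
  have h2 : mapLaLa c0 h (genL c0 E y) = PicX.map c0 (Wb p E.L) ↥E'.L y :=
    PicX.map_comp c0 (Wb p E.L) ↥E.L ↥E'.L y
  rw [h1, h2]

end Maps

/-! ### The data at the algebraic levels and the `Levels` structure -/

section Data

variable {p : ℕ} [Fact p.Prime] {K : IntermediateField ℚ Qbar}
  {B0 B1 B01 : Type} [CommRing B0] [CommRing B1] [CommRing B01]
  [Algebra (Wb p K) B0] [Algebra (Wb p K) B1] [Algebra (Wb p K) B01] [Algebra B0 B01]
  [Algebra B1 B01] [IsScalarTower (Wb p K) B0 B01] [IsScalarTower (Wb p K) B1 B01]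
  {ι : Type} [Preorder ι] (lev : ι → NLevel p K) (hlev : ∀ i j, i ≤ j → lev i ≤ lev j)

/-- The inputs at the algebraic levels: the dictionary `d` (helper39's `Fam.d`, with `d_add`,
`d_tower`) and the multidegree-`0` subgroups `P00 i ≤ Pic X_{A ∩ L_i}` with their functoriality. -/
structure AlgData (c0 : TwoChart (Wb p K) B0 B1 B01) (G : Type) [AddCommGroup G] where
  /-- the dictionary at the level `i` -/
  d : ∀ i, G → PicL c0 (lev i)
  d_add : ∀ i x y, d i (x + y) = d i x * d i y
  d_tower : ∀ i j (h : i ≤ j) (x : G), mapLaLa c0 (hlev i j h) (d i x) = d j x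
  /-- the classes of multidegree `0` at the level `i` -/
  P00 : ∀ i, Subgroup (PicOL c0 (lev i))
  hPP : ∀ i j (h : i ≤ j) (y : PicOL c0 (lev i)), y ∈ P00 i → mapOaOa c0 (hlev i j h) y ∈ P00 j

variable {lev hlev} {c0 : TwoChart (Wb p K) B0 B1 B01} {G : Type} [AddCommGroup G]

/-- `J0L` is monotone in the level. -/
theorem AlgData.mono0 (D : AlgData lev hlev c0 G) (i j : ι) (h : i ≤ j) (x : G) :
    letI := algAK (padicPlace p) (lev i).leL
    letI := algAKL (padicPlace p) (lev i).leL
    haveI := isScalarTower_AK (padicPlace p) (lev i).leL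
    haveI := isDVR_OL (lev i)
    letI := algAK (padicPlace p) (lev j).leL
    letI := algAKL (padicPlace p) (lev j).leL
    haveI := isScalarTower_AK (padicPlace p) (lev j).leL
    haveI := isDVR_OL (lev j)
    D.d i x ∈ J0L c0 (Wb p (lev i).L) ↥(lev i).L (D.P00 i) →
      D.d j x ∈ J0L c0 (Wb p (lev j).L) ↥(lev j).L (D.P00 j) := by
  letI := algAK (padicPlace p) (lev i).leL
  letI := algAKL (padicPlace p) (lev i).leL
  haveI := isScalarTower_AK (padicPlace p) (lev i).leL
  haveI := isDVR_OL (lev i)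
  letI := algAK (padicPlace p) (lev j).leL
  letI := algAKL (padicPlace p) (lev j).leL
  haveI := isScalarTower_AK (padicPlace p) (lev j).leL
  haveI := isDVR_OL (lev j)
  letI := algOaOa (hlev i j h)
  letI := algLaLa (hlev i j h)
  letI := algOaLa (hlev i j h)
  haveI := tower_W_Oa_Oa (hlev i j h)
  haveI := isLocalHom_OaOa (hlev i j h)
  haveI := tower_W_La_La (hlev i j h)
  haveI := tower_W_Oa_La (hlev i j h)
  haveI := tower_Oa_La_La (hlev i j h)
  haveI := tower_Oa_Oa_La (hlev i j h)
  intro hx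
  have h1 := map_mem_J0L (c0 := c0) (O := Wb p (lev i).L) (L := ↥(lev i).L)
    (O' := Wb p (lev j).L) (L' := ↥(lev j).L) (P00 := D.P00 i) (P00' := D.P00 j)
    (D.hPP i j h) hx
  have h2 : PicX.map c0 ↥(lev i).L ↥(lev j).L (D.d i x) = D.d j x := D.d_tower i j h x
  rw [h2] at h1
  exact h1

/-- `J1L` is monotone in the level. -/
theorem AlgData.mono1 (D : AlgData lev hlev c0 G) (i j : ι) (h : i ≤ j) (x : G) :
    letI := algAK (padicPlace p) (lev i).leL
    letI := algAKL (padicPlace p) (lev i).leL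
    haveI := isScalarTower_AK (padicPlace p) (lev i).leL
    haveI := isDVR_OL (lev i)
    letI := algAK (padicPlace p) (lev j).leL
    letI := algAKL (padicPlace p) (lev j).leL
    haveI := isScalarTower_AK (padicPlace p) (lev j).leL
    haveI := isDVR_OL (lev j)
    D.d i x ∈ J1L c0 (Wb p (lev i).L) ↥(lev i).L (D.P00 i) →
      D.d j x ∈ J1L c0 (Wb p (lev j).L) ↥(lev j).L (D.P00 j) := by
  letI := algAK (padicPlace p) (lev i).leL
  letI := algAKL (padicPlace p) (lev i).leL
  haveI := isScalarTower_AK (padicPlace p) (lev i).leL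
  haveI := isDVR_OL (lev i)
  letI := algAK (padicPlace p) (lev j).leL
  letI := algAKL (padicPlace p) (lev j).leL
  haveI := isScalarTower_AK (padicPlace p) (lev j).leL
  haveI := isDVR_OL (lev j)
  letI := algOaOa (hlev i j h)
  letI := algLaLa (hlev i j h)
  letI := algOaLa (hlev i j h)
  haveI := tower_W_Oa_Oa (hlev i j h)
  haveI := isLocalHom_OaOa (hlev i j h)
  haveI := tower_W_La_La (hlev i j h)
  haveI := tower_W_Oa_La (hlev i j h)
  haveI := tower_Oa_La_La (hlev i j h)
  haveI := tower_Oa_Oa_La (hlev i j h)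
  intro hx
  have h1 := map_mem_J1L (c0 := c0) (O := Wb p (lev i).L) (L := ↥(lev i).L)
    (O' := Wb p (lev j).L) (L' := ↥(lev j).L) (P00 := D.P00 i) (P00' := D.P00 j)
    (D.hPP i j h) hx
  have h2 : PicX.map c0 ↥(lev i).L ↥(lev j).L (D.d i x) = D.d j x := D.d_tower i j h x
  rw [h2] at h1
  exact h1

/-- The range of `Pic X_{A ∩ L} → Pic X_L` is monotone in the level. -/
theorem AlgData.monoRange (D : AlgData lev hlev c0 G) (i j : ι) (h : i ≤ j) (x : G)
    (hx : D.d i x ∈ (genL c0 (lev i)).range) : D.d j x ∈ (genL c0 (lev j)).range := by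
  obtain ⟨y, hy⟩ := MonoidHom.mem_range.1 hx
  refine MonoidHom.mem_range.2 ⟨mapOaOa c0 (hlev i j h) y, ?_⟩
  rw [genL_mapOaOa, hy, D.d_tower i j h x]

variable [IsDirected ι (· ≤ ·)] [Nonempty ι]

/-- **The `Levels` of `AD74.J0a` built from the algebraic data**, over helper93's families. -/
def AlgData.levels (D : AlgData lev hlev c0 G) :
    letI := dvrFam lev
    letI := algWOFam lev
    letI := algWLFam lev
    haveI := towerFam lev
    Levels (G := G) c0 (OFam lev) (LFam lev) := by
  letI := dvrFam lev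
  letI := algWOFam lev
  letI := algWLFam lev
  haveI := towerFam lev
  exact
    { d := D.d
      d_add := D.d_add
      P00 := D.P00
      mono0 := fun i j h x hx => D.mono0 i j h x hx
      mono1 := fun i j h x hx => D.mono1 i j h x hx }

/-- `MonoExt` (no multidegree condition) for helper93's `Jexta`. -/
theorem AlgData.monoExt (D : AlgData lev hlev c0 G) :
    letI := dvrFam lev
    letI := algWOFam lev
    letI := algWLFam lev
    haveI := towerFam lev
    MonoExt D.levels := by
  letI := dvrFam lev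
  letI := algWOFam lev
  letI := algWLFam lev
  haveI := towerFam lev
  intro i j h x hx
  exact D.monoRange i j h x hx

end Data

end Fermat.Agent.T1B.AD74.Inst
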