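/-
Programme T1B (row 38 via S44), cell AD (ALG-DESCENT), helper74: **`J0aInst`** — THE CONCRETE
`J0a.Levels` ON helper39's DICTIONARY, and the final forms of AD-MAIN / AD-EXT / the converses.

Index type: helper93's `ADPe93.LevelAbove p K S.L₀` (normal levels whose number field contains the
field of definition `S.L₀` of the torsion section `S : Bridge39.TorsSec N K m`), `lev := LevelAbove.lev`.
`G := ↥(Pic0.torsion ℚ̄ (ℚ̄·F_N) m)` (`S : TorsSec N K m`, ANY exponent `m`; `m = p` for S44);
`d i := Fam.d S (lev i).L _` (helper39, `Bridge39/Final`);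
`P00 i := P.P00 (lev i)` for an input `P : P00Data c0` (the multidegree-`0` subgroups of
`Pic X_{A ∩ L}` for every normal level, with their functoriality — the hub `Bal60.P00`).

* `algData Fam S P : AlgData LevelAbove.lev _ c0 G`, `levels Fam S P : J0a.Levels c0 (OFam lev) (LFam lev)`,
  `monoExt`;
* `mem_J0a_iff`, `mem_J1a_iff`, `mem_Jexta_iff` in concrete terms;
* `completion` : helper93's `Completion (levels Fam S P) j` for any bridge `j` with `hj`;
* `adMain`, `adMain1`, `adExt`, `exists_extension`, `j_mem_of_mem_J0a`, `j_mem_of_mem_J1a`.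
-/
import Mathlib
import Fermat.Agent.T1B.AD74.Inst
import Fermat.Agent.T1B.ADPe93.Final
import Fermat.Agent.T1B.Bridge39.Final

set_option autoImplicit false
set_option linter.unusedSectionVars false
set_option linter.style.haveILetI false
set_option synthInstance.maxHeartbeats 400000
set_option maxHeartbeats 1000000

open AlgebraicCurve ModularCurve
open Fermat.Agent.TW.B5.Iface Fermat.Agent.RED.Interface4 Fermat.Agent.T1.HubInst98
open Fermat.Agent.T1.IntSub47 Fermat.Agent.Jac Fermat.Agent.T1.RedIface75 Fermat.Agent.T1.Red11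
open Fermat.Agent.T1B.RedN3
open Fermat.Agent.T1B.Local66.LocalBase Fermat.Agent.T1B.Local66.Union
open Fermat.Agent.T1B.AD74.J0a Fermat.Agent.T1B.AD74.Inst
open Fermat.Agent.T1B.ADPe93 Fermat.Agent.T1B.ADPe93.Inst Fermat.Agent.T1B.ADPe93.Final
open Fermat.Agent.T1B.Bridge39

noncomputable section

namespace Fermat.Agent.T1B.AD74.J0aInst

variable {p : ℕ} [Fact p.Prime] {N : ℕ} [NeZero N] {K : IntermediateField ℚ Qbar}
  {B0 B1 B01 : Type} [CommRing B0] [CommRing B1] [CommRing B01]
  [Algebra (Wb p K) B0] [Algebra (Wb p K) B1] [Algebra (Wb p K) B01] [Algebra B0 B01]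
  [Algebra B1 B01] [IsScalarTower (Wb p K) B0 B01] [IsScalarTower (Wb p K) B1 B01]

/-- The multidegree-`0` subgroups of `Pic X_{A ∩ L}` at all normal levels, with their functoriality
(input; the hub `Bal60.P00` and `map_mem_P00`). -/
structure P00Data (c0 : TwoChart (Wb p K) B0 B1 B01) where
  /-- the classes of multidegree `0` over `A ∩ L` -/
  P00 : ∀ E : NLevel p K, Subgroup (PicOL c0 E)
  hPP : ∀ (E E' : NLevel p K) (h : E ≤ E') (y : PicOL c0 E), y ∈ P00 E → mapOaOa c0 h y ∈ P00 E'

variable {c0 : TwoChart (Wb p K) B0 B1 B01}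
  (Fam : ChartIsoFamilyN (padicPlace p) N K c0) {m : ℕ} (S : TorsSec N K m) (P : P00Data c0)

/-- The group `J₀(N)(ℚ̄)[m]` (`m = p` for S44; any exponent, e.g. `p ^ n`, is allowed). -/
abbrev TorsG (N : ℕ) [NeZero N] (m : ℕ) : Type :=
  ↥(Pic0.torsion Qbar (modularFunctionFieldBar N) m)

/-- The level map `lev`, with all implicit arguments fixed. -/
abbrev levS (p : ℕ) [Fact p.Prime] {N : ℕ} [NeZero N] {K : IntermediateField ℚ Qbar} {m : ℕ}
    (S : TorsSec N K m) : LevelAbove p K S.L₀ → NLevel p K := LevelAbove.lev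

theorem levS_mono (i j : LevelAbove p K S.L₀) (h : i ≤ j) : levS p S i ≤ levS p S j := h

/-- **The algebraic data on helper39's dictionary.** -/
def algData : AlgData (levS p S) (levS_mono (p := p) S) c0 (TorsG N m) where
  d i := Fam.d S (levS p S i).L (LevelAbove.le_L i)
  d_add i x y := Fam.d_add S (levS p S i).L (LevelAbove.le_L i) x y
  d_tower i j h x :=
    Fam.d_tower S (levS p S i).L (levS p S j).L (LevelAbove.le_L i) (NLevel.le_def.1 h) x
  P00 i := P.P00 (levS p S i)
  hPP i j h y hy := P.hPP (levS p S i) (levS p S j) h y hy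

variable [FiniteDimensional ℚ K]

instance nonemptyLevelAbove : Nonempty (LevelAbove p K S.L₀) :=
  haveI := S.fin₀
  inferInstance

/-- **`J0aInst`: the concrete `Levels`.** -/
def levels :
    letI := dvrFam (levS p S)
    letI := algWOFam (levS p S)
    letI := algWLFam (levS p S)
    haveI := towerFam (levS p S)
    Levels (G := TorsG N m) c0 (OFam (levS p S)) (LFam (levS p S)) :=
  (algData Fam S P).levels

/-- `MonoExt` for `levels`. -/
theorem monoExt :
    letI := dvrFam (levS p S)
    letI := algWOFam (levS p S)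
    letI := algWLFam (levS p S)
    haveI := towerFam (levS p S)
    MonoExt (levels Fam S P) :=
  (algData Fam S P).monoExt

/-- `J0a`, concretely. -/
theorem mem_J0a_iff (x : TorsG N m) :
    letI := dvrFam (levS p S)
    letI := algWOFam (levS p S)
    letI := algWLFam (levS p S)
    haveI := towerFam (levS p S)
    x ∈ J0a (levels Fam S P) ↔ ∃ i : LevelAbove p K S.L₀, ∃ y ∈ P.P00 (levS p S i),
      genL c0 (levS p S i) y = Fam.d S (levS p S i).L (LevelAbove.le_L i) x := by
  letI := dvrFam (levS p S)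
  letI := algWOFam (levS p S)
  letI := algWLFam (levS p S)
  haveI := towerFam (levS p S)
  exact J0a.mem_J0a_iff

/-- `J1a`, concretely. -/
theorem mem_J1a_iff (x : TorsG N m) :
    letI := dvrFam (levS p S)
    letI := algWOFam (levS p S)
    letI := algWLFam (levS p S)
    haveI := towerFam (levS p S)
    x ∈ J1a (levels Fam S P) ↔ ∃ i : LevelAbove p K S.L₀, ∃ y ∈ P.P00 (levS p S i),
      red c0 (OFam (levS p S) i) y = 1 ∧
        genL c0 (levS p S i) y = Fam.d S (levS p S i).L (LevelAbove.le_L i) x := by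
  letI := dvrFam (levS p S)
  letI := algWOFam (levS p S)
  letI := algWLFam (levS p S)
  haveI := towerFam (levS p S)
  exact J0a.mem_J1a_iff

/-- `Jexta`, concretely. -/
theorem mem_Jexta_iff (x : TorsG N m) :
    letI := dvrFam (levS p S)
    letI := algWOFam (levS p S)
    letI := algWLFam (levS p S)
    haveI := towerFam (levS p S)
    x ∈ Jexta (levels Fam S P) (monoExt Fam S P) ↔ ∃ i : LevelAbove p K S.L₀,
      ∃ y : PicOL c0 (levS p S i), genL c0 (levS p S i) y = Fam.d S (levS p S i).L (LevelAbove.le_L i) x := by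
  letI := dvrFam (levS p S)
  letI := algWOFam (levS p S)
  letI := algWLFam (levS p S)
  haveI := towerFam (levS p S)
  exact ADPe93.mem_Jexta_iff

/-! ### The final forms -/

section Final

variable [Module.Flat (Wb p K) B0] [Module.Flat (Wb p K) B1] [Module.Flat (Wb p K) B01]
  (e0 : B0 →+* LaurentSeries ↥K)
  (he0 : ∀ w : Wb p K, e0 (algebraMap (Wb p K) B0 w) = HahnSeries.C (algebraMap (Wb p K) ↥K w))
  (e1 : B1 →+* LaurentSeries ↥K)
  (he1 : ∀ w : Wb p K, e1 (algebraMap (Wb p K) B1 w) = HahnSeries.C (algebraMap (Wb p K) ↥K w))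
  (e01 : B01 →+* LaurentSeries ↥K)
  (he01 : ∀ w : Wb p K, e01 (algebraMap (Wb p K) B01 w) = HahnSeries.C (algebraMap (Wb p K) ↥K w))
  (h0 : ∀ b : B0, e01 (algebraMap B0 B01 b) = e0 b)
  (h1 : ∀ b : B1, e01 (algebraMap B1 B01 b) = e1 b)
  (hinj0 : Function.Injective e0) (hinj1 : Function.Injective e1)
  (hinj01 : Function.Injective e01)
  (j : TorsG N m →+ Atop p K c0)
  (hj : ∀ (i : LevelAbove p K S.L₀) (x : TorsG N m), Additive.ofMul
    (bcE c0 (levS p S i) (toEh c0 (levS p S i) (Fam.d S (levS p S i).L (LevelAbove.le_L i) x))) = j x)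

/-- **The concrete `Completion`** of `levels Fam S P` for the bridge `j`. -/
def completion :
    letI := dvrFam (levS p S)
    letI := algWOFam (levS p S)
    letI := algWLFam (levS p S)
    haveI := towerFam (levS p S)
    Completion (levels Fam S P) j := by
  letI := dvrFam (levS p S)
  letI := algWOFam (levS p S)
  letI := algWLFam (levS p S)
  haveI := towerFam (levS p S)
  haveI := S.fin₀
  exact completionAbove c0 e0 he0 e1 he1 e01 he01 h0 h1 S.L₀ hinj0 hinj1 hinj01
    (levels Fam S P) j hj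

include Fam S P e0 he0 e1 he1 e01 he01 h0 h1 hinj0 hinj1 hinj01 hj

/-- **AD-MAIN**: `j x ∈ J0 → x ∈ J0a`. -/
theorem adMain [Nonempty (NLevel p K)] (hinjE : ∀ E : NLevel p K, Function.Injective (bcE c0 E))
    (Q : ∀ E : NLevel p K, Subgroup (PicO c0 E)) (hQ : Compatible c0 Q)
    (hrefl : ∀ (i : LevelAbove p K S.L₀) (y : PicOL c0 (levS p S i)),
      toOh c0 (levS p S i) y ∈ Q (levS p S i) → y ∈ P.P00 (levS p S i))
    (x : TorsG N m) (hx : j x ∈ unionSub c0 Q hQ) :
    letI := dvrFam (levS p S)
    letI := algWOFam (levS p S)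
    letI := algWLFam (levS p S)
    haveI := towerFam (levS p S)
    x ∈ J0a (levels Fam S P) := by
  letI := dvrFam (levS p S)
  letI := algWOFam (levS p S)
  letI := algWLFam (levS p S)
  haveI := towerFam (levS p S)
  exact (completion Fam S P e0 he0 e1 he1 e01 he01 h0 h1 hinj0 hinj1 hinj01 j hj).adMain hinjE Q hQ
    hrefl x hx

/-- **AD-MAIN for `J1`**: `j x ∈ J1 → x ∈ J1a`. -/
theorem adMain1 [Nonempty (NLevel p K)] (hinjE : ∀ E : NLevel p K, Function.Injective (bcE c0 E))
    (Q : ∀ E : NLevel p K, Subgroup (PicO c0 E)) (hQ : Compatible c0 Q)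
    (hrefl : ∀ (i : LevelAbove p K S.L₀) (y : PicOL c0 (levS p S i)),
      toOh c0 (levS p S i) y ∈ Q (levS p S i) →
        y ∈ P.P00 (levS p S i) ∧
          (letI := dvrFam (levS p S)
           letI := algWOFam (levS p S)
           red c0 (OFam (levS p S) i) y = 1))
    (x : TorsG N m) (hx : j x ∈ unionSub c0 Q hQ) :
    letI := dvrFam (levS p S)
    letI := algWOFam (levS p S)
    letI := algWLFam (levS p S)
    haveI := towerFam (levS p S)
    x ∈ J1a (levels Fam S P) := by
  letI := dvrFam (levS p S)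
  letI := algWOFam (levS p S)
  letI := algWLFam (levS p S)
  haveI := towerFam (levS p S)
  exact (completion Fam S P e0 he0 e1 he1 e01 he01 h0 h1 hinj0 hinj1 hinj01 j hj).adMain1 hinjE Q hQ
    hrefl x hx

/-- **AD-EXT = AD-MAIN-Pe**: `j x ∈ JextTop → x ∈ Jexta`. -/
theorem adExt [Nonempty (NLevel p K)] (hinjE : ∀ E : NLevel p K, Function.Injective (bcE c0 E)) :
    letI := dvrFam (levS p S)
    letI := algWOFam (levS p S)
    letI := algWLFam (levS p S)
    haveI := towerFam (levS p S)
    ADExt j (levels Fam S P) (monoExt Fam S P) := by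
  letI := dvrFam (levS p S)
  letI := algWOFam (levS p S)
  letI := algWLFam (levS p S)
  haveI := towerFam (levS p S)
  exact (completion Fam S P e0 he0 e1 he1 e01 he01 h0 h1 hinj0 hinj1 hinj01 j hj).adExt hinjE
    (monoExt Fam S P)

/-- **AD-MAIN-Pe, explicit form**: the hypothesis of `(R1)` gives an extension at an algebraic
level. -/
theorem exists_extension [Nonempty (NLevel p K)]
    (hinjE : ∀ E : NLevel p K, Function.Injective (bcE c0 E))
    {J0 C : AddSubgroup (Atop p K c0)} (hJ0 : J0 ≤ JextTop c0) (hC : C ≤ JextTop c0)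
    (x : TorsG N m) (h : ∃ z ∈ C, j x - z ∈ J0) :
    ∃ i : LevelAbove p K S.L₀, ∃ y : PicOL c0 (levS p S i),
      genL c0 (levS p S i) y = Fam.d S (levS p S i).L (LevelAbove.le_L i) x := by
  letI := dvrFam (levS p S)
  letI := algWOFam (levS p S)
  letI := algWLFam (levS p S)
  haveI := towerFam (levS p S)
  exact (completion Fam S P e0 he0 e1 he1 e01 he01 h0 h1 hinj0 hinj1 hinj01 j
    hj).exists_extension hinjE hJ0 hC x h

/-- Converse of AD-MAIN: `x ∈ J0a → j x ∈ J0`. -/
theorem j_mem_of_mem_J0a [Nonempty (NLevel p K)]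
    (Q : ∀ E : NLevel p K, Subgroup (PicO c0 E)) (hQ : Compatible c0 Q)
    (hmap : ∀ (i : LevelAbove p K S.L₀) (y : PicOL c0 (levS p S i)),
      y ∈ P.P00 (levS p S i) → toOh c0 (levS p S i) y ∈ Q (levS p S i))
    (x : TorsG N m)
    (hx : letI := dvrFam (levS p S)
          letI := algWOFam (levS p S)
          letI := algWLFam (levS p S)
          haveI := towerFam (levS p S)
          x ∈ J0a (levels Fam S P)) :
    j x ∈ unionSub c0 Q hQ := by
  letI := dvrFam (levS p S)
  letI := algWOFam (levS p S)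
  letI := algWLFam (levS p S)
  haveI := towerFam (levS p S)
  exact (completion Fam S P e0 he0 e1 he1 e01 he01 h0 h1 hinj0 hinj1 hinj01 j
    hj).j_mem_unionSub_of_mem_J0a Q hQ hmap x hx

/-- Converse of AD-MAIN for `J1`: `x ∈ J1a → j x ∈ J1`. -/
theorem j_mem_of_mem_J1a [Nonempty (NLevel p K)]
    (Q : ∀ E : NLevel p K, Subgroup (PicO c0 E)) (hQ : Compatible c0 Q)
    (hmap : ∀ (i : LevelAbove p K S.L₀) (y : PicOL c0 (levS p S i)),
      y ∈ P.P00 (levS p S i) →
        (letI := dvrFam (levS p S)
         letI := algWOFam (levS p S)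
         red c0 (OFam (levS p S) i) y = 1) → toOh c0 (levS p S i) y ∈ Q (levS p S i))
    (x : TorsG N m)
    (hx : letI := dvrFam (levS p S)
          letI := algWOFam (levS p S)
          letI := algWLFam (levS p S)
          haveI := towerFam (levS p S)
          x ∈ J1a (levels Fam S P)) :
    j x ∈ unionSub c0 Q hQ := by
  letI := dvrFam (levS p S)
  letI := algWOFam (levS p S)
  letI := algWLFam (levS p S)
  haveI := towerFam (levS p S)
  exact (completion Fam S P e0 he0 e1 he1 e01 he01 h0 h1 hinj0 hinj1 hinj01 j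
    hj).j_mem_unionSub_of_mem_J1a Q hQ hmap x hx

end Final

end Fermat.Agent.T1B.AD74.J0aInst
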