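/-
Programme T1B (row 38 via S44), cell AD (ALG-DESCENT), helper74: REFLECTION OF `P00` UNDER BASE CHANGE.

If every component of the fibre of the source is hit by a component of the fibre of the target
(`φ : ι' → ι` surjective; in the application `O = A ∩ L → Ô = O_{E_L}`, same residue field, `φ = id`),
then a class whose base change has multidegree `0` has multidegree `0`:

* `mem_P00_of_bc_mem_P00` (abstract cube), `mem_P00_of_map_mem_P00` (hub form) : the hypothesis
  `hrefl` of AD-MAIN;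
* `map_mem_P00_iff`.
(2 lines from helper60's `Bal60.Mdeg_bc`, `Bal60.P00_eq_ker`.)
-/
import Mathlib
import Fermat.Agent.T1B.Bal60.MapP00

set_option autoImplicit false
set_option linter.unusedSectionVars false

universe u

open TensorProduct

namespace Fermat.Agent.T1B.AD74.Refl

open Fermat.Agent.Jac Fermat.Agent.Jac.JGroup85Pic Fermat.Agent.Jac.BaseChange75
open Fermat.Agent.T1B.RedN3 Fermat.Agent.T1B.Bal60

section Abstract

variable {A R0 R1 R01 A' R0' R1' R01' : Type u}
  [CommRing A] [CommRing R0] [CommRing R1] [CommRing R01]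
  [Algebra A R0] [Algebra A R1] [Algebra A R01] [Algebra R0 R01] [Algebra R1 R01]
  [IsScalarTower A R0 R01] [IsScalarTower A R1 R01]
  [CommRing A'] [CommRing R0'] [CommRing R1'] [CommRing R01']
  [Algebra A' R0'] [Algebra A' R1'] [Algebra A' R01'] [Algebra R0' R01'] [Algebra R1' R01']
  [IsScalarTower A' R0' R01'] [IsScalarTower A' R1' R01']
  [Algebra R0 R0'] [Algebra R1 R1'] [Algebra R01 R01']
  (ha0 : (algebraMap R0' R01').comp (algebraMap R0 R0') =
    (algebraMap R01 R01').comp (algebraMap R0 R01))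
  (ha1 : (algebraMap R1' R01').comp (algebraMap R1 R1') =
    (algebraMap R01 R01').comp (algebraMap R1 R01))
  {c : TwoChart A R0 R1 R01} {c' : TwoChart A' R0' R1' R01'}
  {K K' : Type u} [Field K] [Field K'] [Algebra K K']
  {p : A} {p' : A'} {ι ι' : Type} (hg : NodalGood c p ι) (hg' : NodalGood c' p' ι')
  (X : ∀ i, Comp c (hg.P0 i) (hg.P1 i) K) (X' : ∀ i', Comp c' (hg'.P0 i') (hg'.P1 i') K')
  (φ : ι' → ι) (b : ∀ i', CompBC (X (φ i')) (X' i'))

include b in
/-- **`P00` is reflected by base change** when every component is hit. -/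
theorem mem_P00_of_bc_mem_P00 (hφ : Function.Surjective φ) {x : LinePic c}
    (hx : LinePic.bc ha0 ha1 c c' x ∈ P00 hg' X') : x ∈ P00 hg X := by
  rw [P00_eq_ker, MonoidHom.mem_ker] at hx ⊢
  funext i
  obtain ⟨i', rfl⟩ := hφ i
  rw [← Mdeg_bc ha0 ha1 hg hg' X X' φ b x i', hx]
  rfl

end Abstract

section Hub

open Fermat.Agent.T1.RedIface75
open scoped Fermat.Agent.Jac.BaseChange75

variable {W B0 B1 B01 : Type u} [CommRing W] [CommRing B0] [CommRing B1] [CommRing B01]
  [Algebra W B0] [Algebra W B1] [Algebra W B01] [Algebra B0 B01] [Algebra B1 B01]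
  [IsScalarTower W B0 B01] [IsScalarTower W B1 B01]
  (c0 : TwoChart W B0 B1 B01)
  (O O' : Type u) [CommRing O] [CommRing O'] [Algebra W O] [Algebra W O'] [Algebra O O']
  [IsScalarTower W O O']
  {π : O} {π' : O'} {ι ι' : Type}
  (hg : NodalGood (c0.baseChange O) π ι) (hg' : NodalGood (c0.baseChange O') π' ι')
  {K K' : Type u} [Field K] [Field K'] [Algebra K K']
  (X : ∀ i, Comp (c0.baseChange O) (hg.P0 i) (hg.P1 i) K)
  (X' : ∀ i', Comp (c0.baseChange O') (hg'.P0 i') (hg'.P1 i') K')
  (φ : ι' → ι) (b : ∀ i', CompBC (X (φ i')) (X' i'))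

include b in
/-- **`hrefl`, hub form**: `PicX.map c0 O O' x ∈ P00' → x ∈ P00` when `φ` is surjective. -/
theorem mem_P00_of_map_mem_P00 (hφ : Function.Surjective φ) {x : PicX c0 O}
    (hx : PicX.map c0 O O' x ∈ P00 hg' X') : x ∈ P00 hg X :=
  mem_P00_of_bc_mem_P00 (square_comm W O O' B0 B01) (square_comm W O O' B1 B01) hg hg' X X' φ b
    hφ hx

include b in
theorem map_mem_P00_iff (hφ : Function.Surjective φ) {x : PicX c0 O} :
    PicX.map c0 O O' x ∈ P00 hg' X' ↔ x ∈ P00 hg X :=
  ⟨mem_P00_of_map_mem_P00 c0 O O' hg hg' X X' φ b hφ,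
    map_mem_P00 c0 O O' hg hg' X X' φ b x⟩

end Hub

end Fermat.Agent.T1B.AD74.Refl
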